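import Mathlib

/-!
# Case II of Fermat's Last Theorem in a principal cyclotomic ring (abstract descent)
-/

set_option autoImplicit false
set_option linter.unusedSectionVars false
set_option linter.unusedVariables false
set_option linter.style.longLine false

namespace Fermat.Agent.Kummer

open Polynomial Finset

variable {R : Type*} [CommRing R] [IsDomain R]

/-- The abstract hypotheses for Kummer's descent. -/
structure Setup (p : ℕ) (ζ : R) : Prop where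
  pp : p.Prime
  p_odd : Odd p
  prim : IsPrimitiveRoot ζ p
  lam_prime : Prime (ζ - 1)
  residue : ∀ x : R, ∃ n : ℤ, (ζ - 1) ∣ x - (n : R)
  lam_dvd_int : ∀ n : ℤ, (ζ - 1) ∣ (n : R) → (p : ℤ) ∣ n
  assoc : Associated ((ζ - 1) ^ (p - 1)) (p : R)
  kummer : ∀ u : Rˣ, (∃ n : ℤ, (ζ - 1) ^ p ∣ (u : R) - (n : R)) → ∃ v : Rˣ, u = v ^ p

namespace Setup

variable {p : ℕ} {ζ : R} (S : Setup p ζ)

include S

lemma one_mem : (1 : R) ∈ nthRootsFinset p (1 : R) := by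
  rw [mem_nthRootsFinset S.pp.pos]; simp

lemma zeta_pow_mem (i : ℕ) : ζ ^ i ∈ nthRootsFinset p (1 : R) := by
  rw [mem_nthRootsFinset S.pp.pos, ← pow_mul, mul_comm, pow_mul, S.prim.pow_eq_one, one_pow]

lemma lam_dvd_sub {η₁ η₂ : R} (h₁ : η₁ ∈ nthRootsFinset p (1 : R))
    (h₂ : η₂ ∈ nthRootsFinset p (1 : R)) : ζ - 1 ∣ η₁ - η₂ :=
  S.prim.sub_one_dvd_sub S.pp h₁ h₂

lemma assoc_sub {η₁ η₂ : R} (h₁ : η₁ ∈ nthRootsFinset p (1 : R))
    (h₂ : η₂ ∈ nthRootsFinset p (1 : R)) (h : η₁ ≠ η₂) : Associated (ζ - 1) (η₁ - η₂) :=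
  S.prim.nthRootsFinset_pairwise_associated_sub_one_sub_of_prime S.pp h₁ h₂ h

lemma card_roots : (nthRootsFinset p (1 : R)).card = p :=
  S.prim.card_nthRootsFinset

/-- `a ≡ b mod λ` implies `a ^ p ≡ b ^ p mod λ ^ p`. -/
lemma pow_sub_pow_dvd {a b : R} (h : ζ - 1 ∣ a - b) : (ζ - 1) ^ p ∣ a ^ p - b ^ p := by
  rw [S.prim.pow_sub_pow_eq_prod_sub_mul a b S.pp.pos]
  have : (ζ - 1) ^ p = ∏ _η ∈ nthRootsFinset p (1 : R), (ζ - 1) := by
    rw [prod_const, S.card_roots]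
  rw [this]
  refine prod_dvd_prod_of_dvd _ _ fun η hη => ?_
  have h1 : ζ - 1 ∣ (1 - η) * b := (S.lam_dvd_sub S.one_mem hη).mul_right b
  have : a - η * b = (a - b) + (1 - η) * b := by ring
  rw [this]
  exact dvd_add h h1

lemma lam_pow_dvd_p_sq : (ζ - 1) ^ p ∣ ((p : R)) ^ 2 := by
  obtain ⟨u, hu⟩ := S.assoc
  rw [← hu, mul_pow, ← pow_mul]
  refine Dvd.dvd.mul_right (pow_dvd_pow _ ?_) _
  have := S.pp.two_le
  have h3 : 3 ≤ p := by
    rcases S.p_odd with ⟨k, hk⟩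
    omega
  have : (p - 1) * 2 = 2 * p - 2 := by omega
  omega

lemma three_le : 3 ≤ p := by
  have := S.pp.two_le
  rcases S.p_odd with ⟨k, hk⟩
  omega

lemma lam_ne_zero : ζ - 1 ≠ 0 := S.lam_prime.ne_zero

lemma not_dvd_int {x : R} {n : ℤ} (hx : ¬ ζ - 1 ∣ x) (hn : ζ - 1 ∣ x - (n : R)) :
    ¬ (p : ℤ) ∣ n := by
  intro h
  apply hx
  have h1 : ζ - 1 ∣ (p : R) := S.prim.sub_one_dvd_natCast S.pp.one_lt
  have h2 : ζ - 1 ∣ (n : R) := by
    obtain ⟨k, rfl⟩ := h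
    push_cast
    exact h1.mul_right _
  have := dvd_add hn h2
  simpa using this

lemma exists_nat_dvd_add_mul {n m : ℤ} (hm : ¬ (p : ℤ) ∣ m) : ∃ i : ℕ, (p : ℤ) ∣ n + i * m := by
  have : Fact p.Prime := ⟨S.pp⟩
  have hm' : (m : ZMod p) ≠ 0 := by
    rwa [Ne, ZMod.intCast_zmod_eq_zero_iff_dvd]
  refine ⟨((-n : ZMod p) * (m : ZMod p)⁻¹).val, ?_⟩
  rw [← ZMod.intCast_zmod_eq_zero_iff_dvd]
  push_cast
  rw [ZMod.natCast_zmod_val]
  field_simp
  ring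

lemma geom_sum_sub_dvd (i : ℕ) : ζ - 1 ∣ (∑ j ∈ range i, ζ ^ j) - (i : R) := by
  have : (∑ j ∈ range i, ζ ^ j) - (i : R) = ∑ j ∈ range i, (ζ ^ j - 1) := by
    rw [sum_sub_distrib]; simp
  rw [this]
  refine dvd_sum fun j _ => ?_
  simpa using sub_dvd_pow_sub_pow ζ 1 j

/-- Some `x + ζ ^ i * y` is divisible by `λ ^ 2`. -/
lemma exists_sq_dvd {x y : R} (hxy : ζ - 1 ∣ x + y) (hy : ¬ ζ - 1 ∣ y) :
    ∃ i : ℕ, (ζ - 1) ^ 2 ∣ x + ζ ^ i * y := by
  obtain ⟨a, ha⟩ := hxy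
  obtain ⟨n, hn⟩ := S.residue a
  obtain ⟨m, hm⟩ := S.residue y
  have hpm : ¬ (p : ℤ) ∣ m := S.not_dvd_int hy hm
  obtain ⟨i, hi⟩ := S.exists_nat_dvd_add_mul (n := n) hpm
  refine ⟨i, ?_⟩
  have hg : ζ ^ i - 1 = (ζ - 1) * ∑ j ∈ range i, ζ ^ j := (mul_geom_sum ζ i).symm
  have hgi := S.geom_sum_sub_dvd i
  set g := ∑ j ∈ range i, ζ ^ j with hgdef
  have e1 : x + ζ ^ i * y = (ζ - 1) * (a + g * y) := by
    have : x + ζ ^ i * y = (x + y) + (ζ ^ i - 1) * y := by ring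
    rw [this, ha, hg]; ring
  rw [e1, pow_two]
  refine mul_dvd_mul_left _ ?_
  have h1 : ζ - 1 ∣ (p : R) := S.prim.sub_one_dvd_natCast S.pp.one_lt
  have h2 : ζ - 1 ∣ ((n + i * m : ℤ) : R) := by
    obtain ⟨k, hk⟩ := hi
    rw [hk]; push_cast
    exact h1.mul_right _
  have e2 : a + g * y = (a - n) + (g - i) * y + (i : R) * (y - m) + ((n + i * m : ℤ) : R) := by
    push_cast; ring
  rw [e2]
  exact dvd_add (dvd_add (dvd_add hn (hgi.mul_right _)) (hm.mul_left _)) h2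

/-- uniqueness of the `λ`-adic decomposition -/
lemma pow_mul_eq_pow_mul {a b : ℕ} {u v : R} (hu : ¬ ζ - 1 ∣ u) (hv : ¬ ζ - 1 ∣ v)
    (h : (ζ - 1) ^ a * u = (ζ - 1) ^ b * v) : a = b ∧ u = v := by
  have key : ∀ {a b : ℕ} {u v : R}, ¬ ζ - 1 ∣ u → (ζ - 1) ^ a * u = (ζ - 1) ^ b * v → b ≤ a := by
    intro a b u v hu h
    by_contra hlt
    rw [not_le] at hlt
    obtain ⟨c, rfl⟩ := Nat.exists_eq_add_of_lt hlt
    apply hu
    have : (ζ - 1) ^ a * u = (ζ - 1) ^ a * ((ζ - 1) * ((ζ - 1) ^ c * v)) := by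
      rw [h]; ring
    have := mul_left_cancel₀ (pow_ne_zero a S.lam_ne_zero) this
    exact ⟨_, this⟩
  have hab : a = b := le_antisymm (key hv h.symm) (key hu h)
  subst hab
  exact ⟨rfl, mul_left_cancel₀ (pow_ne_zero a S.lam_ne_zero) h⟩

/-- a unit congruent to minus a ratio of `p`-th powers is congruent to an integer. -/
lemma exists_int_congr {η : Rˣ} {A B : R} (hB : ¬ ζ - 1 ∣ B)
    (h : (ζ - 1) ^ p ∣ A ^ p + η * B ^ p) : ∃ n : ℤ, (ζ - 1) ^ p ∣ (η : R) - (n : R) := by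
  obtain ⟨n1, hn1⟩ := S.residue A
  obtain ⟨n2, hn2⟩ := S.residue B
  have hpn2 : ¬ (p : ℤ) ∣ n2 := S.not_dvd_int hB hn2
  have P1 := S.pow_sub_pow_dvd hn1
  have P2 := S.pow_sub_pow_dvd hn2
  have P4 : (ζ - 1) ^ p ∣ (n1 : R) ^ p + η * (n2 : R) ^ p := by
    have e : (n1 : R) ^ p + η * (n2 : R) ^ p =
        (A ^ p + η * B ^ p) - (A ^ p - (n1 : R) ^ p) - η * (B ^ p - (n2 : R) ^ p) := by ring
    rw [e]
    exact dvd_sub (dvd_sub h P1) (P2.mul_left _)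
  have hcop : IsCoprime (n2 ^ p) ((p : ℤ) ^ 2) := by
    apply IsCoprime.pow
    rw [isCoprime_comm]
    exact (Nat.prime_iff_prime_int.mp S.pp).coprime_iff_not_dvd.mpr hpn2
  obtain ⟨a, b, hab⟩ := hcop
  refine ⟨-a * n1 ^ p, ?_⟩
  have hab' : (a : R) * (n2 : R) ^ p + (b : R) * (p : R) ^ 2 = 1 := by
    have := congrArg (Int.cast : ℤ → R) hab
    push_cast at this
    exact this
  have e : (η : R) - ((-a * n1 ^ p : ℤ) : R) =
      a * ((n1 : R) ^ p + η * (n2 : R) ^ p) + η * b * (p : R) ^ 2 := by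
    push_cast
    have : (η : R) = η * ((a : R) * (n2 : R) ^ p + (b : R) * (p : R) ^ 2) := by rw [hab', mul_one]
    linear_combination this
  rw [e]
  exact dvd_add (P4.mul_left _) (S.lam_pow_dvd_p_sq.mul_left _)

variable [IsPrincipalIdealRing R]

/-- decomposition of the factors `x + η y`. -/
lemma exists_factor_decomp {x y : R} (hy : ¬ ζ - 1 ∣ y) (hne : x + y ≠ 0)
    (h2 : (ζ - 1) ^ 2 ∣ x + y) :
    ∃ (k : ℕ) (c : R → R), 2 ≤ k ∧ (∀ η ∈ nthRootsFinset p (1 : R), ¬ ζ - 1 ∣ c η) ∧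
      x + y = (ζ - 1) ^ k * c 1 ∧
      (∀ η ∈ nthRootsFinset p (1 : R), η ≠ 1 → x + η * y = (ζ - 1) * c η) := by
  classical
  have hfin : FiniteMultiplicity (ζ - 1) (x + y) :=
    FiniteMultiplicity.of_not_isUnit S.lam_prime.not_isUnit hne
  obtain ⟨c₁, hc₁, hc₁'⟩ := hfin.exists_eq_pow_mul_and_not_dvd
  set k := multiplicity (ζ - 1) (x + y) with hk
  have hk2 : 2 ≤ k := hfin.le_multiplicity_of_pow_dvd h2
  have hc : ∀ η ∈ nthRootsFinset p (1 : R), ∃ c, ¬ ζ - 1 ∣ c ∧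
      x + η * y = (ζ - 1) ^ (if η = 1 then k else 1) * c := by
    intro η hη
    by_cases h1 : η = 1
    · subst h1
      exact ⟨c₁, hc₁', by simpa using hc₁⟩
    · obtain ⟨u, hu⟩ := S.assoc_sub hη S.one_mem h1
      obtain ⟨t, ht⟩ := h2
      refine ⟨(ζ - 1) * t + u * y, ?_, ?_⟩
      · intro h
        have : ζ - 1 ∣ u * y := (dvd_add_right (dvd_mul_right _ _)).mp h
        exact hy ((Units.dvd_mul_left).mp this)
      · have : x + η * y = (x + y) + (η - 1) * y := by ring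
        rw [this, ht, ← hu, if_neg h1]; ring
  choose! c hc1 hc2 using hc
  refine ⟨k, c, hk2, hc1, ?_, ?_⟩
  · simpa using hc2 1 S.one_mem
  · intro η hη h1
    simpa [h1] using hc2 η hη

lemma isCoprime_factors {x y : R} (hxy : IsCoprime x y) {η₁ η₂ c₁ c₂ : R}
    (h₁ : η₁ ∈ nthRootsFinset p (1 : R)) (h₂ : η₂ ∈ nthRootsFinset p (1 : R)) (hne : η₁ ≠ η₂)
    (hc₁ : ¬ ζ - 1 ∣ c₁) (hd₁ : c₁ ∣ x + η₁ * y) (hd₂ : c₂ ∣ x + η₂ * y) : IsCoprime c₁ c₂ := by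
  refine isCoprime_of_prime_dvd (not_and.2 (fun hz _ ↦ hc₁ (by simp [hz]))) ?_
  intro q hq hq1 hq2
  have a1 : q ∣ x + η₁ * y := hq1.trans hd₁
  have a2 : q ∣ x + η₂ * y := hq2.trans hd₂
  have b1 : q ∣ (η₁ - η₂) * y := by
    have : (η₁ - η₂) * y = (x + η₁ * y) - (x + η₂ * y) := by ring
    rw [this]; exact dvd_sub a1 a2
  have b2 : q ∣ (η₁ - η₂) * x := by
    have : (η₁ - η₂) * x = η₁ * (x + η₂ * y) - η₂ * (x + η₁ * y) := by ring
    rw [this]; exact dvd_sub (a2.mul_left _) (a1.mul_left _)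
  obtain ⟨a, b, hab⟩ := hxy
  have b3 : q ∣ η₁ - η₂ := by
    have : η₁ - η₂ = a * ((η₁ - η₂) * x) + b * ((η₁ - η₂) * y) := by
      linear_combination (-(η₁ - η₂)) * hab
    rw [this]; exact dvd_add (b2.mul_left _) (b1.mul_left _)
  have b4 : q ∣ ζ - 1 := b3.trans (S.assoc_sub h₁ h₂ hne).symm.dvd
  have b5 : Associated q (ζ - 1) := hq.associated_of_dvd S.lam_prime b4
  exact hc₁ (b5.symm.dvd.trans hq1)

/-- The main descent step, assuming `λ ^ 2 ∣ x + y`. -/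
lemma descent_aux {m : ℕ} {x y w : R} {ε : Rˣ} (hy : ¬ ζ - 1 ∣ y)
    (hw : ¬ ζ - 1 ∣ w) (hxy : IsCoprime x y) (H : x ^ p + y ^ p = ε * ((ζ - 1) ^ m * w) ^ p)
    (h2 : (ζ - 1) ^ 2 ∣ x + y) :
    2 ≤ m ∧ ∃ (x' y' w' : R) (ε' : Rˣ), ¬ ζ - 1 ∣ x' ∧ ¬ ζ - 1 ∣ y' ∧ ¬ ζ - 1 ∣ w' ∧
      IsCoprime x' y' ∧ x' ^ p + y' ^ p = ε' * ((ζ - 1) ^ (m - 1) * w') ^ p := by
  classical
  have hp0 : p ≠ 0 := S.pp.ne_zero
  have hp3 := S.three_le
  set μ := nthRootsFinset p (1 : R) with hμ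
  have hprod : ∏ η ∈ μ, (x + η * y) = ε * ((ζ - 1) ^ m * w) ^ p := by
    rw [← H, S.prim.pow_add_pow_eq_prod_add_mul x y S.p_odd]
  have hw0 : w ≠ 0 := fun h => hw (by simp [h])
  have hrhs : (ε : R) * ((ζ - 1) ^ m * w) ^ p ≠ 0 :=
    mul_ne_zero ε.ne_zero (pow_ne_zero _ (mul_ne_zero (pow_ne_zero _ S.lam_ne_zero) hw0))
  have hne : x + y ≠ 0 := by
    intro h
    apply hrhs
    rw [← hprod]
    exact prod_eq_zero S.one_mem (by simpa using h)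
  obtain ⟨k, c, hk2, hc, hc1, hcη⟩ := S.exists_factor_decomp hy hne h2
  -- the product formula
  have hprod2 : ∏ η ∈ μ, (x + η * y) = (ζ - 1) ^ (k + (p - 1)) * ∏ η ∈ μ, c η := by
    rw [← mul_prod_erase μ _ S.one_mem, ← mul_prod_erase μ c S.one_mem, one_mul, hc1]
    have : ∏ η ∈ μ.erase 1, (x + η * y) = ∏ η ∈ μ.erase 1, ((ζ - 1) * c η) :=
      prod_congr rfl fun η hη => hcη η (mem_of_mem_erase hη) (ne_of_mem_erase hη)
    rw [this, prod_mul_distrib, prod_const, card_erase_of_mem S.one_mem, S.card_roots, pow_add]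
    ring
  have hnd1 : ¬ ζ - 1 ∣ ∏ η ∈ μ, c η := by
    intro h
    obtain ⟨η, hη, hd⟩ := S.lam_prime.exists_mem_finset_dvd h
    exact hc η hη hd
  have hnd2 : ¬ ζ - 1 ∣ (ε : R) * w ^ p := by
    intro h
    exact hw (S.lam_prime.dvd_of_dvd_pow ((Units.dvd_mul_left).mp h))
  have heq : (ζ - 1) ^ (k + (p - 1)) * ∏ η ∈ μ, c η = (ζ - 1) ^ (m * p) * ((ε : R) * w ^ p) := by
    rw [← hprod2, hprod, mul_pow, ← pow_mul]; ring
  obtain ⟨hkm, hcw⟩ := S.pow_mul_eq_pow_mul hnd1 hnd2 heq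
  have hm2 : 2 ≤ m := by
    by_contra hlt
    have : m = 0 ∨ m = 1 := by omega
    rcases this with rfl | rfl <;> omega
  refine ⟨hm2, ?_⟩
  have hk1 : k = (m - 1) * p + 1 := by
    obtain ⟨m', rfl⟩ : ∃ m', m = m' + 1 := ⟨m - 1, by omega⟩
    simp only [Nat.add_sub_cancel]
    have : (m' + 1) * p = m' * p + p := by ring
    omega
  -- pairwise coprimality
  have hcop : ∀ η₁ ∈ μ, ∀ η₂ ∈ μ, η₁ ≠ η₂ → IsCoprime (c η₁) (c η₂) := by
    intro η₁ h₁ η₂ h₂ hne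
    have hd : ∀ η ∈ μ, c η ∣ x + η * y := by
      intro η hη
      by_cases h1 : η = 1
      · subst h1; rw [one_mul, hc1]; exact dvd_mul_left _ _
      · rw [hcη η hη h1]; exact dvd_mul_left _ _
    exact S.isCoprime_factors hxy h₁ h₂ hne (hc η₁ h₁) (hd η₁ h₁) (hd η₂ h₂)
  -- each factor is a p-th power up to a unit
  have hpow : ∀ η₀ ∈ μ, ∃ d, Associated (d ^ p) (c η₀) := by
    intro η₀ h₀
    have h1 : IsCoprime (c η₀) (∏ η ∈ μ.erase η₀, c η) :=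
      IsCoprime.prod_right fun η hη =>
        hcop η₀ h₀ η (mem_of_mem_erase hη) (ne_of_mem_erase hη).symm
    have h2 : Associated (w ^ p) (c η₀ * ∏ η ∈ μ.erase η₀, c η) := by
      rw [mul_prod_erase μ c h₀, hcw]
      exact ⟨ε, by ring⟩
    exact exists_associated_pow_of_associated_pow_mul h1 h2
  have hζ1 : ζ ≠ 1 := S.prim.ne_one S.pp.one_lt
  have hζ2 : ζ ^ 2 ≠ 1 := S.prim.pow_ne_one_of_pos_of_lt (by norm_num) (by omega)
  have hζ12 : ζ ≠ ζ ^ 2 := by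
    intro h
    apply hζ1
    have h0 : ζ ≠ 0 := S.prim.ne_zero hp0
    have : ζ * 1 = ζ * ζ := by rw [mul_one, ← pow_two]; exact h
    exact (mul_left_cancel₀ h0 this).symm
  have mζ : ζ ∈ μ := by simpa using S.zeta_pow_mem 1
  have mζ2 : ζ ^ 2 ∈ μ := S.zeta_pow_mem 2
  obtain ⟨d0, u0, hd0⟩ := hpow 1 S.one_mem
  obtain ⟨d1, u1, hd1⟩ := hpow ζ mζ
  obtain ⟨d2, u2, hd2⟩ := hpow (ζ ^ 2) mζ2
  have e1 := hcη ζ mζ hζ1
  have e2 := hcη (ζ ^ 2) mζ2 hζ2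
  -- the linear relation
  have rel : c (ζ ^ 2) + ζ * ((ζ - 1) ^ ((m - 1) * p) * c 1) = (1 + ζ) * c ζ := by
    have r : (x + ζ ^ 2 * y) + ζ * (x + y) = (1 + ζ) * (x + ζ * y) := by ring
    rw [e1, e2, hc1, hk1, pow_succ (ζ - 1) ((m - 1) * p)] at r
    apply mul_left_cancel₀ S.lam_ne_zero
    linear_combination r
  obtain ⟨v, hv⟩ : IsUnit (1 + ζ) := by
    have := S.prim.geom_sum_isUnit S.pp.two_le (j := 2)
      ((Nat.coprime_primes Nat.prime_two S.pp).mpr (by omega))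
    simpa [sum_range_succ] using this
  obtain ⟨z, hz⟩ : IsUnit ζ := S.prim.isUnit hp0
  set t : Rˣ := v * u1 with ht
  have hodd : (-d2) ^ p = - d2 ^ p := S.p_odd.neg_pow d2
  have key0 : (t : R) * d1 ^ p + u2 * (-d2) ^ p = z * u0 * ((ζ - 1) ^ (m - 1) * d0) ^ p := by
    rw [hodd, ht, Units.val_mul, hv, hz, mul_pow, ← pow_mul]
    rw [← hd0, ← hd1, ← hd2] at rel
    linear_combination -rel
  have key : d1 ^ p + ((u2 * t⁻¹ : Rˣ) : R) * (-d2) ^ p =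
      ((z * u0 * t⁻¹ : Rˣ) : R) * ((ζ - 1) ^ (m - 1) * d0) ^ p := by
    have a1 : d1 ^ p + ((u2 * t⁻¹ : Rˣ) : R) * (-d2) ^ p =
        ((t⁻¹ : Rˣ) : R) * ((t : R) * d1 ^ p + u2 * (-d2) ^ p) := by
      rw [mul_add, ← mul_assoc, Units.inv_mul, one_mul, Units.val_mul]; ring
    rw [a1, key0]
    simp only [Units.val_mul]; ring
  have nd0 : ¬ ζ - 1 ∣ d0 := fun h => hc 1 S.one_mem (hd0 ▸ (dvd_pow h hp0).mul_right _)
  have nd1 : ¬ ζ - 1 ∣ d1 := fun h => hc ζ mζ (hd1 ▸ (dvd_pow h hp0).mul_right _)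
  have nd2 : ¬ ζ - 1 ∣ -d2 := fun h =>
    hc (ζ ^ 2) mζ2 (hd2 ▸ (dvd_pow ((dvd_neg).mp h) hp0).mul_right _)
  have hdvd : (ζ - 1) ^ p ∣ d1 ^ p + ((u2 * t⁻¹ : Rˣ) : R) * (-d2) ^ p := by
    rw [key, mul_pow, ← pow_mul]
    refine Dvd.dvd.mul_left (Dvd.dvd.mul_right (pow_dvd_pow _ ?_) _) _
    calc p = 1 * p := (one_mul p).symm
      _ ≤ (m - 1) * p := Nat.mul_le_mul_right p (by omega)
  obtain ⟨θ, hθ⟩ := S.kummer _ (S.exists_int_congr nd2 hdvd)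
  refine ⟨d1, θ * (-d2), d0, z * u0 * t⁻¹, nd1, ?_, nd0, ?_, ?_⟩
  · intro h; exact nd2 ((Units.dvd_mul_left).mp h)
  · have h12 : IsCoprime (c ζ) (c (ζ ^ 2)) := hcop ζ mζ (ζ ^ 2) mζ2 hζ12
    rw [← hd1, ← hd2] at h12
    have h3 : IsCoprime (d1 ^ p) (d2 ^ p) := h12.of_mul_left_left.of_mul_right_left
    have h4 : IsCoprime d1 d2 := (IsCoprime.pow_iff S.pp.pos S.pp.pos).mp h3
    exact (isCoprime_mul_unit_left_right θ.isUnit _ _).mpr h4.neg_right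
  · rw [mul_pow, ← Units.val_pow_eq_pow_val, ← hθ]
    exact key

/-- Kummer's descent: the generalised Fermat equation has no solution in case II. -/
theorem no_solution : ∀ (m : ℕ) (x y w : R) (ε : Rˣ), 1 ≤ m → ¬ ζ - 1 ∣ y → ¬ ζ - 1 ∣ w →
    IsCoprime x y → x ^ p + y ^ p ≠ ε * ((ζ - 1) ^ m * w) ^ p := by
  intro m
  induction m with
  | zero => intro x y w ε h; omega
  | succ m ih =>
    intro x y w ε _ hy hw hxy H
    have hp0 : p ≠ 0 := S.pp.ne_zero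
    have hprod : ∏ η ∈ nthRootsFinset p (1 : R), (x + η * y) =
        ε * ((ζ - 1) ^ (m + 1) * w) ^ p := by
      rw [← H, S.prim.pow_add_pow_eq_prod_add_mul x y S.p_odd]
    have h1 : ζ - 1 ∣ ∏ η ∈ nthRootsFinset p (1 : R), (x + η * y) := by
      rw [hprod]
      refine Dvd.dvd.mul_left (dvd_pow ?_ hp0) _
      exact Dvd.dvd.mul_right (dvd_pow_self _ (Nat.succ_ne_zero m)) _
    obtain ⟨η, hη, hd⟩ := S.lam_prime.exists_mem_finset_dvd h1
    have hxy1 : ζ - 1 ∣ x + y := by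
      have : x + y = (x + η * y) + (1 - η) * y := by ring
      rw [this]
      exact dvd_add hd ((S.lam_dvd_sub S.one_mem hη).mul_right _)
    obtain ⟨i, hi⟩ := S.exists_sq_dvd hxy1 hy
    have hu : IsUnit (ζ ^ i) := (S.prim.isUnit hp0).pow i
    have hy' : ¬ ζ - 1 ∣ ζ ^ i * y := fun h => hy ((hu.dvd_mul_left).mp h)
    have hxy' : IsCoprime x (ζ ^ i * y) := (isCoprime_mul_unit_left_right hu _ _).mpr hxy
    have H' : x ^ p + (ζ ^ i * y) ^ p = ε * ((ζ - 1) ^ (m + 1) * w) ^ p := by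
      rw [mul_pow, ← pow_mul, mul_comm i p, pow_mul, S.prim.pow_eq_one, one_pow, one_mul, H]
    obtain ⟨hm2, x', y', w', ε', -, hy'', hw'', hxy'', H''⟩ := S.descent_aux hy' hw hxy' H' hi
    exact ih x' y' w' ε' (by omega) hy'' hw'' hxy'' H''

/-- Case II over the integers. -/
theorem caseII_int {a b c : ℤ} (hab : IsCoprime a b) (hc : c ≠ 0) (hpc : (p : ℤ) ∣ c)
    (hb : ¬ (p : ℤ) ∣ b) : a ^ p + b ^ p ≠ c ^ p := by
  intro H
  have hpp : Prime (p : ℤ) := Nat.prime_iff_prime_int.mp S.pp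
  have hfin : FiniteMultiplicity (p : ℤ) c := FiniteMultiplicity.of_not_isUnit hpp.not_isUnit hc
  obtain ⟨c', hc', hc''⟩ := hfin.exists_eq_pow_mul_and_not_dvd
  set k := multiplicity (p : ℤ) c with hk
  have hk1 : 1 ≤ k := hfin.le_multiplicity_of_pow_dvd (by simpa using hpc)
  obtain ⟨u, hu⟩ := S.assoc
  have hcR : (c : R) = (ζ - 1) ^ ((p - 1) * k) * ((u : R) ^ k * (c' : R)) := by
    conv_lhs => rw [hc']
    push_cast
    rw [← hu, mul_pow, ← pow_mul]; ring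
  have hp3 := S.three_le
  refine S.no_solution ((p - 1) * k) (a : R) (b : R) ((u : R) ^ k * (c' : R)) 1 ?_ ?_ ?_ ?_ ?_
  · exact Nat.mul_pos (by omega) hk1
  · exact fun h => hb (S.lam_dvd_int b h)
  · intro h
    have : ζ - 1 ∣ (c' : R) := ((u.isUnit.pow k).dvd_mul_left).mp h
    exact hc'' (S.lam_dvd_int c' this)
  · exact IsCoprime.intCast hab
  · rw [← hcR, Units.val_one, one_mul]
    have := congrArg (Int.cast : ℤ → R) H
    push_cast at this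
    exact this

/-- Fermat's Last Theorem for exponent `p`, for coprime integers, given case I. -/
theorem flt_coprime
    (hI : ∀ a b c : ℤ, IsCoprime a b → ¬ (p : ℤ) ∣ a * b * c → a ^ p + b ^ p ≠ c ^ p)
    {a b c : ℤ} (ha : a ≠ 0) (hb : b ≠ 0) (hc : c ≠ 0) (hab : IsCoprime a b)
    (H : a ^ p + b ^ p = c ^ p) : False := by
  have hpp : Prime (p : ℤ) := Nat.prime_iff_prime_int.mp S.pp
  have hp0 : 0 < p := S.pp.pos
  have hodd : ∀ t : ℤ, (-t) ^ p = - t ^ p := fun t => S.p_odd.neg_pow t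
  have hcb : IsCoprime c b := by
    rw [← IsCoprime.pow_iff hp0 hp0, ← H]
    have h1 : IsCoprime (a ^ p) (b ^ p) := hab.pow
    simpa using h1.add_mul_left_left 1
  have hca : IsCoprime c a := by
    rw [← IsCoprime.pow_iff hp0 hp0, ← H]
    have h1 : IsCoprime (b ^ p) (a ^ p) := hab.symm.pow
    have := h1.add_mul_left_left 1
    rw [mul_one, add_comm] at this
    exact this
  by_cases h : (p : ℤ) ∣ a * b * c
  · rcases hpp.dvd_or_dvd h with h | h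
    · rcases hpp.dvd_or_dvd h with h | h
      · -- p ∣ a
        have hnb : ¬ (p : ℤ) ∣ -b := by
          intro hb'
          exact hpp.not_isUnit (hab.isUnit_of_dvd' h ((dvd_neg).mp hb'))
        refine S.caseII_int (a := c) (b := -b) (c := a) hcb.neg_right ha h hnb ?_
        rw [hodd]; linarith
      · -- p ∣ b
        have hna : ¬ (p : ℤ) ∣ -a := by
          intro ha'
          exact hpp.not_isUnit (hab.isUnit_of_dvd' ((dvd_neg).mp ha') h)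
        refine S.caseII_int (a := c) (b := -a) (c := b) hca.neg_right hb h hna ?_
        rw [hodd]; linarith
    · -- p ∣ c
      have hnb : ¬ (p : ℤ) ∣ b := by
        intro hb'
        exact hpp.not_isUnit (hcb.isUnit_of_dvd' h hb')
      exact S.caseII_int hab hc h hnb H
  · exact hI a b c hab h H

end Setup

end Fermat.Agent.Kummer
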