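import Mathlib
import Fermat.Agent.Kummer.CaseII

/-!
# The abstract descent applied to the ring of integers of a cyclotomic field
-/

set_option autoImplicit false
set_option linter.unusedSectionVars false
set_option linter.unusedVariables false
set_option linter.style.longLine false

namespace Fermat.Agent.Kummer

open NumberField

variable {p : ℕ} [hp : Fact p.Prime] {K : Type*} [Field K] [NumberField K]
  [IsCyclotomicExtension {p} ℚ K] {ζ : K}

/-- every algebraic integer of the cyclotomic field is congruent to a rational integer mod `ζ - 1`. -/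
lemma exists_int_zeta_sub_one_dvd_sub (hζ : IsPrimitiveRoot ζ p) (x : 𝓞 K) :
    ∃ n : ℤ, hζ.toInteger - 1 ∣ x - (n : 𝓞 K) := by
  have hx : x ∈ Algebra.adjoin ℤ {hζ.toInteger} := by
    rw [IsCyclotomicExtension.Rat.adjoin_singleton_eq_top hζ]; trivial
  induction hx using Algebra.adjoin_induction with
  | mem x hx =>
    rw [Set.mem_singleton_iff] at hx
    subst hx
    exact ⟨1, by simp⟩
  | algebraMap r => exact ⟨r, by simp⟩
  | add x y _ _ hx hy =>
    obtain ⟨n, hn⟩ := hx
    obtain ⟨m, hm⟩ := hy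
    refine ⟨n + m, ?_⟩
    have : x + y - ((n + m : ℤ) : 𝓞 K) = (x - n) + (y - m) := by push_cast; ring
    rw [this]; exact dvd_add hn hm
  | mul x y _ _ hx hy =>
    obtain ⟨n, hn⟩ := hx
    obtain ⟨m, hm⟩ := hy
    refine ⟨n * m, ?_⟩
    have : x * y - ((n * m : ℤ) : 𝓞 K) = (x - n) * y + n * (y - m) := by push_cast; ring
    rw [this]; exact dvd_add (hn.mul_right _) (hm.mul_left _)

/-- The statement of Kummer's lemma for the prime `p` and the cyclotomic field `K`. -/
def KummerLemma (p : ℕ) (K : Type*) [Field K] : Prop :=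
  ∀ u : (𝓞 K)ˣ, (∃ n : ℤ, (p : 𝓞 K) ∣ (u : 𝓞 K) - (n : 𝓞 K)) → ∃ v : (𝓞 K)ˣ, u = v ^ p

theorem setup_of_kummerLemma (hp2 : p ≠ 2) (hζ : IsPrimitiveRoot ζ p) (hK : KummerLemma p K) :
    Setup p hζ.toInteger where
  pp := hp.out
  p_odd := hp.out.odd_of_ne_two hp2
  prim := hζ.toInteger_isPrimitiveRoot
  lam_prime := hζ.zeta_sub_one_prime'
  residue := exists_int_zeta_sub_one_dvd_sub hζ
  lam_dvd_int := fun n h => (IsCyclotomicExtension.Rat.zeta_sub_one_dvd_intCast_iff' p hζ).mp h
  assoc := IsCyclotomicExtension.Rat.associated_zeta_sub_one_pow_prime p hζ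
  kummer := by
    rintro u ⟨n, hn⟩
    refine hK u ⟨n, ?_⟩
    have h1 : (p : 𝓞 K) ∣ (hζ.toInteger - 1) ^ (p - 1) :=
      (IsCyclotomicExtension.Rat.associated_zeta_sub_one_pow_prime p hζ).symm.dvd
    exact (h1.trans (pow_dvd_pow _ (Nat.sub_le p 1))).trans hn

/-- **Kummer**: FLT for exponent `p` (coprime integer form) from: `𝓞 K` principal, Kummer's lemma,
and case I. -/
theorem flt_of_pid_of_kummerLemma (hp2 : p ≠ 2) (K : Type*) [Field K] [NumberField K]
    [IsCyclotomicExtension {p} ℚ K] [IsPrincipalIdealRing (𝓞 K)] (hK : KummerLemma p K)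
    (hI : ∀ a b c : ℤ, IsCoprime a b → ¬ (p : ℤ) ∣ a * b * c → a ^ p + b ^ p ≠ c ^ p)
    {a b c : ℤ} (ha : a ≠ 0) (hb : b ≠ 0) (hc : c ≠ 0) (hab : IsCoprime a b)
    (H : a ^ p + b ^ p = c ^ p) : False :=
  (setup_of_kummerLemma hp2 (IsCyclotomicExtension.zeta_spec p ℚ K) hK).flt_coprime hI ha hb hc hab H

end Fermat.Agent.Kummer
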