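import Fermat.Agent.Kummer.KummerGeneral

set_option autoImplicit false

/-!
# The logarithmic derivative on the units of `ℤ[ζ_p]`

`TW p n = (ZMod p)[X]/(X^n)`; for `p = n + 2` there is a ring hom
`𝓞 K → DualNumber (TW p n)` sending `ζ` to `(1 + t)(1 + ε)`.
-/

namespace Fermat.Agent.Kummer

open NumberField Polynomial

/-- The truncated polynomial ring `(ZMod p)[X]/(X^n)`. -/
abbrev TW (p n : ℕ) : Type := (ZMod p)[X] ⧸ Ideal.span {(X : (ZMod p)[X]) ^ n}

/-- The class of `X` in `TW p n`. -/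
noncomputable def tW (p n : ℕ) : TW p n := Ideal.Quotient.mk _ X

lemma tW_pow (p n : ℕ) : tW p n ^ n = 0 := by
  rw [tW, ← map_pow, Ideal.Quotient.eq_zero_iff_mem]
  exact Ideal.mem_span_singleton_self _

lemma natCast_TW (p n : ℕ) : (p : TW p n) = 0 := by
  have : (p : TW p n) = algebraMap (ZMod p) (TW p n) (p : ZMod p) := by rw [map_natCast]
  rw [this, CharP.cast_eq_zero, map_zero]

/-- Coefficient extraction in `TW p n`. -/
lemma coeff_eq_zero_of_sum_smul_tW_pow {p n : ℕ} (a : Fin n → ZMod p)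
    (h : ∑ d : Fin n, a d • tW p n ^ (d : ℕ) = 0) : a = 0 := by
  have h1 : ∑ d : Fin n, a d • tW p n ^ (d : ℕ) =
      Ideal.Quotient.mk (Ideal.span {(X : (ZMod p)[X]) ^ n})
        (∑ d : Fin n, C (a d) * X ^ (d : ℕ)) := by
    rw [map_sum]
    refine Finset.sum_congr rfl fun d _ => ?_
    rw [← smul_eq_C_mul, tW, ← map_pow]
    rfl
  rw [h1, Ideal.Quotient.eq_zero_iff_mem, Ideal.mem_span_singleton, X_pow_dvd_iff] at h
  funext d
  have := h d d.2
  rw [finsetSum_coeff] at this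
  simp only [coeff_C_mul, coeff_X_pow] at this
  rw [Finset.sum_eq_single d] at this
  · simpa using this
  · intro b _ hb
    have : (d : ℕ) ≠ (b : ℕ) := fun h => hb (Fin.ext h.symm)
    simp [this]
  · intro h; exact absurd (Finset.mem_univ d) h

/-- Independence criterion: rows of a matrix with a right inverse. -/
lemma linearIndependent_of_matrix {p m n : ℕ} (M : Matrix (Fin m) (Fin n) (ZMod p))
    (N : Matrix (Fin n) (Fin m) (ZMod p)) (h : M * N = 1) :
    LinearIndependent (ZMod p) (fun i : Fin m => ∑ d : Fin n, M i d • tW p n ^ (d : ℕ)) := by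
  rw [Fintype.linearIndependent_iff]
  intro c hc
  have h1 : ∑ d : Fin n, (Matrix.vecMul c M) d • tW p n ^ (d : ℕ) = 0 := by
    rw [← hc]
    simp only [Matrix.vecMul, dotProduct, Finset.sum_smul, Finset.smul_sum, smul_smul]
    rw [Finset.sum_comm]
  have h2 := coeff_eq_zero_of_sum_smul_tW_pow _ h1
  have h3 : Matrix.vecMul c (M * N) = 0 := by
    rw [← Matrix.vecMul_vecMul, h2, Matrix.zero_vecMul]
  rw [h, Matrix.vecMul_one] at h3
  intro i
  rw [h3]; rfl

section cyclo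

variable {p n : ℕ} [hp : Fact p.Prime] (hn : p = n + 2)

/-- The image of `ζ`. -/
noncomputable def yW (p n : ℕ) : DualNumber (TW p n) :=
  TrivSqZeroExt.inl (1 + tW p n) + TrivSqZeroExt.inr (1 + tW p n)

lemma fst_yW_pow (p n i : ℕ) : (yW p n ^ i).fst = (1 + tW p n) ^ i := by
  rw [TrivSqZeroExt.fst_pow]; simp [yW]

lemma snd_yW_pow (p n i : ℕ) : (yW p n ^ i).snd = (i : TW p n) * (1 + tW p n) ^ i := by
  rw [TrivSqZeroExt.snd_pow]
  cases i with
  | zero => simp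
  | succ j =>
    simp only [yW, TrivSqZeroExt.fst_add, TrivSqZeroExt.fst_inl, TrivSqZeroExt.fst_inr, add_zero,
      TrivSqZeroExt.snd_add, TrivSqZeroExt.snd_inl, TrivSqZeroExt.snd_inr, zero_add, Nat.pred_succ,
      smul_eq_mul, nsmul_eq_mul]
    rw [pow_succ]

include hn in
lemma aeval_yW : aeval (yW p n) (cyclotomic p ℤ) = 0 := by
  have h1 : cyclotomic p (ZMod p) = (X - 1) ^ (p - 1) := by
    have := cyclotomic_mul_prime_eq_pow_of_not_dvd (ZMod p) (n := 1) (p := p)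
      (by simpa using hp.out.one_lt.ne')
    simpa [cyclotomic_one] using this
  have h2 : aeval (yW p n) (cyclotomic p ℤ) = aeval (yW p n) (cyclotomic p (ZMod p)) := by
    rw [← map_cyclotomic p (algebraMap ℤ (ZMod p)), aeval_map_algebraMap]
  rw [h2, h1]
  simp only [map_pow, map_sub, aeval_X, map_one]
  have h3 : p - 1 = n + 1 := by omega
  rw [h3]
  apply TrivSqZeroExt.ext
  · rw [TrivSqZeroExt.fst_pow]
    simp [yW, pow_succ, tW_pow]
  · rw [TrivSqZeroExt.snd_pow]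
    simp [yW, tW_pow]

variable {K : Type*} [Field K] [NumberField K] [IsCyclotomicExtension {p} ℚ K]
  {ζ : K} (hζ : IsPrimitiveRoot ζ p)

include hn in
lemma aeval_gen_yW :
    haveI : NeZero p := ⟨hp.out.ne_zero⟩
    aeval (yW p n) (minpoly ℤ hζ.integralPowerBasis.gen) = 0 := by
  haveI : NeZero p := ⟨hp.out.ne_zero⟩
  rw [hζ.integralPowerBasis_gen]
  have h1 : minpoly ℤ hζ.toInteger = minpoly ℤ ζ :=
    (minpoly.algebraMap_eq (A := ℤ) (B := 𝓞 K) (B' := K)
      (RingOfIntegers.coe_injective) hζ.toInteger).symm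
  rw [h1, ← cyclotomic_eq_minpoly hζ hp.out.pos]
  exact aeval_yW hn

/-- The ring hom `𝓞 K → DualNumber (TW p n)`, `ζ ↦ (1+t)(1+ε)`. -/
noncomputable def Psi : 𝓞 K →+* DualNumber (TW p n) :=
  haveI : NeZero p := ⟨hp.out.ne_zero⟩
  (hζ.integralPowerBasis.lift (yW p n) (aeval_gen_yW hn hζ)).toRingHom

lemma Psi_zeta : Psi hn hζ hζ.toInteger = yW p n := by
  haveI : NeZero p := ⟨hp.out.ne_zero⟩
  calc Psi hn hζ hζ.toInteger = Psi hn hζ hζ.integralPowerBasis.gen := by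
        rw [hζ.integralPowerBasis_gen]
    _ = yW p n := hζ.integralPowerBasis.lift_gen (yW p n) (aeval_gen_yW hn hζ)

lemma fst_Psi_geom (a : ℕ) :
    (Psi hn hζ (∑ i ∈ Finset.range a, hζ.toInteger ^ i)).fst =
      ∑ i ∈ Finset.range a, (1 + tW p n) ^ i := by
  induction a with
  | zero => simp
  | succ a ih =>
    rw [Finset.sum_range_succ, Finset.sum_range_succ, map_add, TrivSqZeroExt.fst_add, ih, map_pow,
      Psi_zeta, fst_yW_pow]

lemma snd_Psi_geom (a : ℕ) :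
    (Psi hn hζ (∑ i ∈ Finset.range a, hζ.toInteger ^ i)).snd =
      ∑ i ∈ Finset.range a, (i : TW p n) * (1 + tW p n) ^ i := by
  induction a with
  | zero => simp
  | succ a ih =>
    rw [Finset.sum_range_succ, Finset.sum_range_succ, map_add, TrivSqZeroExt.snd_add, ih, map_pow,
      Psi_zeta, snd_yW_pow]

lemma rank_add_one (h3 : 2 < p) : Units.rank K + 1 = (p - 1) / 2 := by
  haveI : NeZero p := ⟨hp.out.ne_zero⟩
  rw [Units.rank, InfinitePlace.card_eq_nrRealPlaces_add_nrComplexPlaces,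
    IsCyclotomicExtension.Rat.nrRealPlaces_eq_zero K h3,
    IsCyclotomicExtension.Rat.nrComplexPlaces_eq_totient_div_two p K, Nat.totient_prime hp.out]
  omega

/-- `ζ` as a unit of `𝓞 K`. -/
noncomputable def zetaUnit : (𝓞 K)ˣ :=
  haveI : NeZero p := ⟨hp.out.ne_zero⟩
  (hζ.toInteger_isPrimitiveRoot.isUnit hp.out.ne_zero).unit

lemma coe_zetaUnit : ((zetaUnit hζ : (𝓞 K)ˣ) : 𝓞 K) = hζ.toInteger := by
  haveI : NeZero p := ⟨hp.out.ne_zero⟩
  exact (hζ.toInteger_isPrimitiveRoot.isUnit hp.out.ne_zero).unit_spec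

/-- The cyclotomic unit `1 + ζ + ⋯ + ζ^(a-1)`. -/
noncomputable def geomUnit (a : ℕ) (ha : a.Coprime p) : (𝓞 K)ˣ :=
  haveI : NeZero p := ⟨hp.out.ne_zero⟩
  (hζ.toInteger_isPrimitiveRoot.geom_sum_isUnit hp.out.two_le ha).unit

lemma coe_geomUnit (a : ℕ) (ha : a.Coprime p) :
    ((geomUnit hζ a ha : (𝓞 K)ˣ) : 𝓞 K) = ∑ i ∈ Finset.range a, hζ.toInteger ^ i := by
  haveI : NeZero p := ⟨hp.out.ne_zero⟩
  exact (hζ.toInteger_isPrimitiveRoot.geom_sum_isUnit hp.out.two_le ha).unit_spec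

lemma dlog_zetaUnit : Multiplicative.toAdd (dlog (Psi hn hζ) (zetaUnit hζ)) = 1 := by
  apply dlog_eq_of_mul_eq
  rw [coe_zetaUnit, Psi_zeta]
  simp [yW]

lemma dlog_geomUnit (a : ℕ) (ha : a.Coprime p) (v : TW p n)
    (hv : v * ∑ i ∈ Finset.range a, (1 + tW p n) ^ i =
      ∑ i ∈ Finset.range a, (i : TW p n) * (1 + tW p n) ^ i) :
    Multiplicative.toAdd (dlog (Psi hn hζ) (geomUnit hζ a ha)) = v := by
  apply dlog_eq_of_mul_eq
  rw [coe_geomUnit, fst_Psi_geom, snd_Psi_geom, hv]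

include hn hζ in
/-- Kummer's lemma from a matrix certificate. -/
theorem kummer_of_matrix (h3 : 2 < p) {m : ℕ} (hm : m = (p - 1) / 2)
    (M : Matrix (Fin m) (Fin n) (ZMod p)) (N : Matrix (Fin n) (Fin m) (ZMod p)) (hMN : M * N = 1)
    (y : Fin m → (𝓞 K)ˣ)
    (hy : ∀ i, Multiplicative.toAdd (dlog (Psi hn hζ) (y i)) = ∑ d : Fin n, M i d • tW p n ^ (d : ℕ))
    (u : (𝓞 K)ˣ) (hu : ∃ k : ℤ, (p : 𝓞 K) ∣ (u : 𝓞 K) - (k : 𝓞 K)) :
    ∃ v : (𝓞 K)ˣ, u = v ^ p := by
  refine kummer_of_linearIndependent (Psi hn hζ) (ι := Fin m) ?_ y ?_ u hu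
  · rw [Fintype.card_fin, hm, rank_add_one h3]
  · simp only [hy]
    exact linearIndependent_of_matrix M N hMN

end cyclo

end Fermat.Agent.Kummer
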