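import Mathlib

set_option autoImplicit false

/-!
# Kummer's lemma via Dirichlet's unit theorem and a logarithmic derivative mod `p`

General part: given a ring hom `Ψ : 𝓞 K →+* DualNumber W` with `W` a `ZMod p`-algebra, the
logarithmic derivative `dlog Ψ u = snd (Ψ u) / fst (Ψ u)` is a homomorphism `(𝓞 K)ˣ → (W, +)`
killing the units congruent to a rational integer mod `p`.  If there are `rank K + 1` units whose
`dlog`s are linearly independent over `ZMod p` then `dlog Ψ u = 0` forces `u` to be a `p`-th power.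
-/

namespace Fermat.Agent.Kummer

open NumberField Polynomial

section dlog

variable {R W : Type*} [CommRing R] [CommRing W]

/-- The logarithmic derivative attached to a ring hom into the dual numbers. -/
noncomputable def dlog (Ψ : R →+* DualNumber W) : Rˣ →* Multiplicative W where
  toFun u := Multiplicative.ofAdd ((Ψ (u : R)).snd * (Ψ ((u⁻¹ : Rˣ) : R)).fst)
  map_one' := by
    simp
  map_mul' u v := by
    have hu : (Ψ (u : R)).fst * (Ψ ((u⁻¹ : Rˣ) : R)).fst = 1 := by
      rw [← TrivSqZeroExt.fst_mul, ← map_mul, Units.mul_inv, map_one, TrivSqZeroExt.fst_one]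
    have hv : (Ψ (v : R)).fst * (Ψ ((v⁻¹ : Rˣ) : R)).fst = 1 := by
      rw [← TrivSqZeroExt.fst_mul, ← map_mul, Units.mul_inv, map_one, TrivSqZeroExt.fst_one]
    rw [← ofAdd_add]
    congr 1
    rw [mul_inv, Units.val_mul, Units.val_mul, map_mul, map_mul, TrivSqZeroExt.snd_mul,
      TrivSqZeroExt.fst_mul, smul_eq_mul, op_smul_eq_mul]
    linear_combination ((Ψ (v : R)).snd * (Ψ ((v⁻¹ : Rˣ) : R)).fst) * hu +
      ((Ψ (u : R)).snd * (Ψ ((u⁻¹ : Rˣ) : R)).fst) * hv

lemma dlog_apply (Ψ : R →+* DualNumber W) (u : Rˣ) :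
    Multiplicative.toAdd (dlog Ψ u) = (Ψ (u : R)).snd * (Ψ ((u⁻¹ : Rˣ) : R)).fst := rfl

/-- If `v * fst (Ψ u) = snd (Ψ u)` then `dlog Ψ u = v`. -/
lemma dlog_eq_of_mul_eq (Ψ : R →+* DualNumber W) (u : Rˣ) (v : W)
    (h : v * (Ψ (u : R)).fst = (Ψ (u : R)).snd) : Multiplicative.toAdd (dlog Ψ u) = v := by
  have hu : (Ψ (u : R)).fst * (Ψ ((u⁻¹ : Rˣ) : R)).fst = 1 := by
    rw [← TrivSqZeroExt.fst_mul, ← map_mul, Units.mul_inv, map_one, TrivSqZeroExt.fst_one]
  rw [dlog_apply, ← h]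
  linear_combination v * hu

end dlog

section main

variable {p : ℕ} [hp : Fact p.Prime] {K : Type*} [Field K] [NumberField K]
variable {W : Type*} [CommRing W] [Algebra (ZMod p) W]

omit [NumberField K] in
lemma dlog_eq_zero_of_dvd (Ψ : 𝓞 K →+* DualNumber W) (u : (𝓞 K)ˣ) (n : ℤ)
    (h : (p : 𝓞 K) ∣ (u : 𝓞 K) - (n : 𝓞 K)) : Multiplicative.toAdd (dlog Ψ u) = 0 := by
  obtain ⟨c, hc⟩ := h
  have hp0 : (p : DualNumber W) = 0 := by
    have : (p : DualNumber W) = algebraMap (ZMod p) (DualNumber W) (p : ZMod p) := by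
      rw [map_natCast]
    rw [this, CharP.cast_eq_zero, map_zero]
  have hu : (u : 𝓞 K) = (n : 𝓞 K) + (p : 𝓞 K) * c := by rw [← hc]; ring
  have : Ψ (u : 𝓞 K) = (n : DualNumber W) := by
    rw [hu, map_add, map_mul, map_natCast, map_intCast, hp0, zero_mul, add_zero]
  rw [dlog_apply, this, TrivSqZeroExt.snd_intCast, zero_mul]

/-- Kummer's lemma from the existence of `rank K + 1` units with independent `dlog`s. -/
theorem kummer_of_linearIndependent (Ψ : 𝓞 K →+* DualNumber W) {ι : Type*} [Fintype ι]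
    (hcard : Fintype.card ι = Units.rank K + 1) (y : ι → (𝓞 K)ˣ)
    (hy : LinearIndependent (ZMod p) (fun i => Multiplicative.toAdd (dlog Ψ (y i))))
    (u : (𝓞 K)ˣ) (hu : ∃ n : ℤ, (p : 𝓞 K) ∣ (u : 𝓞 K) - (n : 𝓞 K)) :
    ∃ v : (𝓞 K)ˣ, u = v ^ p := by
  classical
  obtain ⟨τ, hτ⟩ := IsCyclic.exists_generator (α := Units.torsion K)
  -- the generating family
  let g : Option (Fin (Units.rank K)) → (𝓞 K)ˣ := fun o => o.elim (τ : (𝓞 K)ˣ) (Units.fundSystem K)
  let w : Option (Fin (Units.rank K)) → W := fun o => Multiplicative.toAdd (dlog Ψ (g o))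
  have hgen : ∀ x : (𝓞 K)ˣ, ∃ n : Option (Fin (Units.rank K)) → ℤ, x = ∏ o, g o ^ n o := by
    intro x
    obtain ⟨⟨t, e⟩, hx, -⟩ := Units.exist_unique_eq_mul_prod K x
    obtain ⟨k, hk⟩ := Subgroup.mem_zpowers_iff.mp (hτ t)
    refine ⟨fun o => o.elim k e, ?_⟩
    rw [Fintype.prod_option]
    simp only [g, Option.elim_none, Option.elim_some]
    rw [hx]
    simp only
    rw [← hk]
    simp
  have hdlog : ∀ n : Option (Fin (Units.rank K)) → ℤ,
      Multiplicative.toAdd (dlog Ψ (∏ o, g o ^ n o)) = ∑ o, (n o : ZMod p) • w o := by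
    intro n
    rw [map_prod, toAdd_prod]
    refine Finset.sum_congr rfl fun o _ => ?_
    rw [map_zpow, toAdd_zpow, Int.cast_smul_eq_zsmul]
  have hspan : ∀ x : (𝓞 K)ˣ,
      Multiplicative.toAdd (dlog Ψ x) ∈ Submodule.span (ZMod p) (Set.range w) := by
    intro x
    obtain ⟨n, rfl⟩ := hgen x
    rw [hdlog]
    exact Submodule.sum_mem _ fun o _ =>
      Submodule.smul_mem _ _ (Submodule.subset_span (Set.mem_range_self o))
  have hw : LinearIndependent (ZMod p) w := by
    rw [linearIndependent_iff_card_le_finrank_span, Fintype.card_option, Fintype.card_fin, ← hcard,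
      ← finrank_span_eq_card hy]
    haveI : Module.Finite (ZMod p) (Submodule.span (ZMod p) (Set.range w)) :=
      Module.Finite.span_of_finite (ZMod p) (Set.finite_range w)
    refine Submodule.finrank_mono ?_
    rw [Submodule.span_le]
    rintro _ ⟨i, rfl⟩
    exact hspan (y i)
  obtain ⟨n, hn⟩ := hu
  have h0 := dlog_eq_zero_of_dvd Ψ u n hn
  obtain ⟨e, rfl⟩ := hgen u
  rw [hdlog] at h0
  have he := Fintype.linearIndependent_iff.mp hw _ h0
  have he' : ∀ o, ∃ m : ℤ, e o = p * m := fun o =>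
    (ZMod.intCast_zmod_eq_zero_iff_dvd (e o) p).mp (he o)
  choose m hm using he'
  refine ⟨∏ o, g o ^ m o, ?_⟩
  rw [← Finset.prod_pow]
  refine Finset.prod_congr rfl fun o _ => ?_
  rw [hm o, ← zpow_natCast, ← zpow_mul, mul_comm]

end main

end Fermat.Agent.Kummer
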