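import Fermat.Agent.Kummer.KummerCyclo

set_option autoImplicit false

/-!
# Kummer's lemma for `p = 5, 7, 11, 13`

A unit of `ℤ[ζ_p]` congruent to a rational integer mod `p` is a `p`-th power.
The certificates (matrices and cofactor polynomials) were computed offline.
-/

namespace Fermat.Agent.Kummer

open NumberField Polynomial


lemma kummer_matrix_five :
    (!![1, 0, 0; 3, 4, 3] : Matrix (Fin 2) (Fin 3) (ZMod 5)) *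
    (!![1, 0; 3, 4; 0, 0] : Matrix (Fin 3) (Fin 2) (ZMod 5)) = 1 := by
  decide

theorem kummer_lemma_five {K : Type*} [Field K] [NumberField K]
    [IsCyclotomicExtension {5} ℚ K]
    (u : (𝓞 K)ˣ) (hu : ∃ k : ℤ, ((5 : ℕ) : 𝓞 K) ∣ (u : 𝓞 K) - (k : 𝓞 K)) :
    ∃ v : (𝓞 K)ˣ, u = v ^ 5 := by
  have : Fact (Nat.Prime 5) := ⟨by norm_num⟩
  have hζ := IsCyclotomicExtension.zeta_spec 5 ℚ K
  have hn : 5 = 3 + 2 := rfl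
  have ht : tW 5 3 ^ 3 = 0 := tW_pow 5 3
  have hp : (5 : TW 5 3) = 0 := by exact_mod_cast natCast_TW 5 3
  refine kummer_of_matrix hn hζ (by norm_num) (m := 2) (by norm_num)
    !![1, 0, 0; 3, 4, 3]
    !![1, 0; 3, 4; 0, 0]
    kummer_matrix_five
    ![zetaUnit hζ, geomUnit hζ 2 (by norm_num)] ?_ u hu
  intro i
  fin_cases i
  · simp [dlog_zetaUnit, Fin.sum_univ_succ]
  · refine dlog_geomUnit hn hζ 2 (by norm_num) _ ?_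
    simp [Fin.sum_univ_succ, Finset.sum_range_succ, ofNat_smul_eq_nsmul, nsmul_eq_mul]
    linear_combination ((3)) * ht +
      ((1) + (2) * tW 5 3 ^ 1 + (2) * tW 5 3 ^ 2) * hp

lemma kummer_matrix_seven :
    (!![1, 0, 0, 0, 0; 4, 2, 6, 4, 5; 1, 3, 2, 4, 0] : Matrix (Fin 3) (Fin 5) (ZMod 7)) *
    (!![1, 0, 0; 3, 6, 1; 0, 0, 0; 1, 6, 3; 0, 0, 0] : Matrix (Fin 5) (Fin 3) (ZMod 7)) = 1 := by
  decide

theorem kummer_lemma_seven {K : Type*} [Field K] [NumberField K]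
    [IsCyclotomicExtension {7} ℚ K]
    (u : (𝓞 K)ˣ) (hu : ∃ k : ℤ, ((7 : ℕ) : 𝓞 K) ∣ (u : 𝓞 K) - (k : 𝓞 K)) :
    ∃ v : (𝓞 K)ˣ, u = v ^ 7 := by
  have : Fact (Nat.Prime 7) := ⟨by norm_num⟩
  have hζ := IsCyclotomicExtension.zeta_spec 7 ℚ K
  have hn : 7 = 5 + 2 := rfl
  have ht : tW 7 5 ^ 5 = 0 := tW_pow 7 5
  have hp : (7 : TW 7 5) = 0 := by exact_mod_cast natCast_TW 7 5
  refine kummer_of_matrix hn hζ (by norm_num) (m := 3) (by norm_num)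
    !![1, 0, 0, 0, 0; 4, 2, 6, 4, 5; 1, 3, 2, 4, 0]
    !![1, 0, 0; 3, 6, 1; 0, 0, 0; 1, 6, 3; 0, 0, 0]
    kummer_matrix_seven
    ![zetaUnit hζ, geomUnit hζ 2 (by norm_num), geomUnit hζ 3 (by norm_num)] ?_ u hu
  intro i
  fin_cases i
  · simp [dlog_zetaUnit, Fin.sum_univ_succ]
  · refine dlog_geomUnit hn hζ 2 (by norm_num) _ ?_
    simp [Fin.sum_univ_succ, Finset.sum_range_succ, ofNat_smul_eq_nsmul, nsmul_eq_mul]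
    linear_combination ((5)) * ht +
      ((1) + (1) * tW 7 5 ^ 1 + (2) * tW 7 5 ^ 2 + (2) * tW 7 5 ^ 3 + (2) * tW 7 5 ^ 4) * hp
  · refine dlog_geomUnit hn hζ 3 (by norm_num) _ ?_
    simp [Fin.sum_univ_succ, Finset.sum_range_succ, ofNat_smul_eq_nsmul, nsmul_eq_mul]
    linear_combination ((4)) * ht +
      ((1) * tW 7 5 ^ 1 + (2) * tW 7 5 ^ 2 + (3) * tW 7 5 ^ 3 + (2) * tW 7 5 ^ 4) * hp

lemma kummer_matrix_eleven :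
    (!![1, 0, 0, 0, 0, 0, 0, 0, 0; 6, 3, 4, 9, 1, 5, 3, 4, 9; 1, 8, 7, 5, 0, 2, 9, 5, 3; 7, 4, 9, 9, 4, 2, 10, 4, 0; 2, 2, 10, 2, 3, 6, 0, 0, 0] : Matrix (Fin 5) (Fin 9) (ZMod 11)) *
    (!![1, 0, 0, 0, 0; 0, 6, 7, 10, 4; 0, 0, 0, 0, 0; 9, 9, 8, 3, 9; 0, 0, 0, 0, 0; 4, 6, 6, 3, 5; 0, 0, 0, 0, 0; 9, 1, 5, 4, 9; 0, 0, 0, 0, 0] : Matrix (Fin 9) (Fin 5) (ZMod 11)) = 1 := by
  decide

theorem kummer_lemma_eleven {K : Type*} [Field K] [NumberField K]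
    [IsCyclotomicExtension {11} ℚ K]
    (u : (𝓞 K)ˣ) (hu : ∃ k : ℤ, ((11 : ℕ) : 𝓞 K) ∣ (u : 𝓞 K) - (k : 𝓞 K)) :
    ∃ v : (𝓞 K)ˣ, u = v ^ 11 := by
  have : Fact (Nat.Prime 11) := ⟨by norm_num⟩
  have hζ := IsCyclotomicExtension.zeta_spec 11 ℚ K
  have hn : 11 = 9 + 2 := rfl
  have ht : tW 11 9 ^ 9 = 0 := tW_pow 11 9
  have hp : (11 : TW 11 9) = 0 := by exact_mod_cast natCast_TW 11 9
  refine kummer_of_matrix hn hζ (by norm_num) (m := 5) (by norm_num)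
    !![1, 0, 0, 0, 0, 0, 0, 0, 0; 6, 3, 4, 9, 1, 5, 3, 4, 9; 1, 8, 7, 5, 0, 2, 9, 5, 3; 7, 4, 9, 9, 4, 2, 10, 4, 0; 2, 2, 10, 2, 3, 6, 0, 0, 0]
    !![1, 0, 0, 0, 0; 0, 6, 7, 10, 4; 0, 0, 0, 0, 0; 9, 9, 8, 3, 9; 0, 0, 0, 0, 0; 4, 6, 6, 3, 5; 0, 0, 0, 0, 0; 9, 1, 5, 4, 9; 0, 0, 0, 0, 0]
    kummer_matrix_eleven
    ![zetaUnit hζ, geomUnit hζ 2 (by norm_num), geomUnit hζ 3 (by norm_num), geomUnit hζ 4 (by norm_num), geomUnit hζ 5 (by norm_num)] ?_ u hu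
  intro i
  fin_cases i
  · simp [dlog_zetaUnit, Fin.sum_univ_succ]
  · refine dlog_geomUnit hn hζ 2 (by norm_num) _ ?_
    simp [Fin.sum_univ_succ, Finset.sum_range_succ, ofNat_smul_eq_nsmul, nsmul_eq_mul]
    linear_combination ((9)) * ht +
      ((1) + (1) * tW 11 9 ^ 1 + (1) * tW 11 9 ^ 2 + (2) * tW 11 9 ^ 3 + (1) * tW 11 9 ^ 4 + (1) * tW 11 9 ^ 5 + (1) * tW 11 9 ^ 6 + (1) * tW 11 9 ^ 7 + (2) * tW 11 9 ^ 8) * hp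
  · refine dlog_geomUnit hn hζ 3 (by norm_num) _ ?_
    simp [Fin.sum_univ_succ, Finset.sum_range_succ, ofNat_smul_eq_nsmul, nsmul_eq_mul]
    linear_combination ((14) + (3) * tW 11 9 ^ 1) * ht +
      ((2) * tW 11 9 ^ 1 + (4) * tW 11 9 ^ 2 + (4) * tW 11 9 ^ 3 + (2) * tW 11 9 ^ 4 + (1) * tW 11 9 ^ 5 + (3) * tW 11 9 ^ 6 + (4) * tW 11 9 ^ 7 + (3) * tW 11 9 ^ 8) * hp
  · refine dlog_geomUnit hn hζ 4 (by norm_num) _ ?_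
    simp [Fin.sum_univ_succ, Finset.sum_range_succ, ofNat_smul_eq_nsmul, nsmul_eq_mul]
    linear_combination ((26) + (4) * tW 11 9 ^ 1) * ht +
      ((2) + (4) * tW 11 9 ^ 1 + (7) * tW 11 9 ^ 2 + (10) * tW 11 9 ^ 3 + (10) * tW 11 9 ^ 4 + (7) * tW 11 9 ^ 5 + (7) * tW 11 9 ^ 6 + (8) * tW 11 9 ^ 7 + (6) * tW 11 9 ^ 8) * hp
  · refine dlog_geomUnit hn hζ 5 (by norm_num) _ ?_
    simp [Fin.sum_univ_succ, Finset.sum_range_succ, ofNat_smul_eq_nsmul, nsmul_eq_mul]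
    linear_combination ((6)) * ht +
      ((5) * tW 11 9 ^ 2 + (11) * tW 11 9 ^ 3 + (13) * tW 11 9 ^ 4 + (12) * tW 11 9 ^ 5 + (10) * tW 11 9 ^ 6 + (7) * tW 11 9 ^ 7 + (3) * tW 11 9 ^ 8) * hp

lemma kummer_matrix_thirteen :
    (!![1, 0, 0, 0, 0, 0, 0, 0, 0, 0, 0; 7, 10, 8, 9, 2, 12, 7, 3, 5, 4, 11; 1, 5, 4, 3, 0, 12, 1, 8, 9, 10, 0; 8, 11, 1, 9, 12, 2, 12, 3, 9, 0, 0; 2, 2, 12, 5, 6, 2, 0, 2, 11, 10, 8; 9, 4, 11, 11, 4, 10, 7, 0, 0, 0, 0] : Matrix (Fin 6) (Fin 11) (ZMod 13)) *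
    (!![1, 0, 0, 0, 0, 0; 10, 7, 6, 8, 12, 9; 0, 0, 0, 0, 0, 0; 9, 6, 1, 4, 7, 5; 0, 0, 0, 0, 0, 0; 6, 1, 3, 8, 7, 4; 0, 0, 0, 0, 0, 0; 12, 12, 12, 10, 4, 10; 0, 0, 0, 0, 0, 0; 4, 6, 7, 11, 5, 2; 0, 0, 0, 0, 0, 0] : Matrix (Fin 11) (Fin 6) (ZMod 13)) = 1 := by
  decide

theorem kummer_lemma_thirteen {K : Type*} [Field K] [NumberField K]
    [IsCyclotomicExtension {13} ℚ K]
    (u : (𝓞 K)ˣ) (hu : ∃ k : ℤ, ((13 : ℕ) : 𝓞 K) ∣ (u : 𝓞 K) - (k : 𝓞 K)) :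
    ∃ v : (𝓞 K)ˣ, u = v ^ 13 := by
  have : Fact (Nat.Prime 13) := ⟨by norm_num⟩
  have hζ := IsCyclotomicExtension.zeta_spec 13 ℚ K
  have hn : 13 = 11 + 2 := rfl
  have ht : tW 13 11 ^ 11 = 0 := tW_pow 13 11
  have hp : (13 : TW 13 11) = 0 := by exact_mod_cast natCast_TW 13 11
  refine kummer_of_matrix hn hζ (by norm_num) (m := 6) (by norm_num)
    !![1, 0, 0, 0, 0, 0, 0, 0, 0, 0, 0; 7, 10, 8, 9, 2, 12, 7, 3, 5, 4, 11; 1, 5, 4, 3, 0, 12, 1, 8, 9, 10, 0; 8, 11, 1, 9, 12, 2, 12, 3, 9, 0, 0; 2, 2, 12, 5, 6, 2, 0, 2, 11, 10, 8; 9, 4, 11, 11, 4, 10, 7, 0, 0, 0, 0]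
    !![1, 0, 0, 0, 0, 0; 10, 7, 6, 8, 12, 9; 0, 0, 0, 0, 0, 0; 9, 6, 1, 4, 7, 5; 0, 0, 0, 0, 0, 0; 6, 1, 3, 8, 7, 4; 0, 0, 0, 0, 0, 0; 12, 12, 12, 10, 4, 10; 0, 0, 0, 0, 0, 0; 4, 6, 7, 11, 5, 2; 0, 0, 0, 0, 0, 0]
    kummer_matrix_thirteen
    ![zetaUnit hζ, geomUnit hζ 2 (by norm_num), geomUnit hζ 3 (by norm_num), geomUnit hζ 4 (by norm_num), geomUnit hζ 5 (by norm_num), geomUnit hζ 6 (by norm_num)] ?_ u hu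
  intro i
  fin_cases i
  · simp [dlog_zetaUnit, Fin.sum_univ_succ]
  · refine dlog_geomUnit hn hζ 2 (by norm_num) _ ?_
    simp [Fin.sum_univ_succ, Finset.sum_range_succ, ofNat_smul_eq_nsmul, nsmul_eq_mul]
    linear_combination ((11)) * ht +
      ((1) + (2) * tW 13 11 ^ 1 + (2) * tW 13 11 ^ 2 + (2) * tW 13 11 ^ 3 + (1) * tW 13 11 ^ 4 + (2) * tW 13 11 ^ 5 + (2) * tW 13 11 ^ 6 + (1) * tW 13 11 ^ 7 + (1) * tW 13 11 ^ 8 + (1) * tW 13 11 ^ 9 + (2) * tW 13 11 ^ 10) * hp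
  · refine dlog_geomUnit hn hζ 3 (by norm_num) _ ?_
    simp [Fin.sum_univ_succ, Finset.sum_range_succ, ofNat_smul_eq_nsmul, nsmul_eq_mul]
    linear_combination ((10)) * ht +
      ((1) * tW 13 11 ^ 1 + (2) * tW 13 11 ^ 2 + (2) * tW 13 11 ^ 3 + (1) * tW 13 11 ^ 4 + (3) * tW 13 11 ^ 5 + (3) * tW 13 11 ^ 6 + (3) * tW 13 11 ^ 7 + (4) * tW 13 11 ^ 8 + (5) * tW 13 11 ^ 9 + (3) * tW 13 11 ^ 10) * hp
  · refine dlog_geomUnit hn hζ 4 (by norm_num) _ ?_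
    simp [Fin.sum_univ_succ, Finset.sum_range_succ, ofNat_smul_eq_nsmul, nsmul_eq_mul]
    linear_combination ((9)) * ht +
      ((2) + (6) * tW 13 11 ^ 1 + (7) * tW 13 11 ^ 2 + (7) * tW 13 11 ^ 3 + (9) * tW 13 11 ^ 4 + (9) * tW 13 11 ^ 5 + (9) * tW 13 11 ^ 6 + (8) * tW 13 11 ^ 7 + (8) * tW 13 11 ^ 8 + (6) * tW 13 11 ^ 9 + (3) * tW 13 11 ^ 10) * hp
  · refine dlog_geomUnit hn hζ 5 (by norm_num) _ ?_
    simp [Fin.sum_univ_succ, Finset.sum_range_succ, ofNat_smul_eq_nsmul, nsmul_eq_mul]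
    linear_combination ((237) + (141) * tW 13 11 ^ 1 + (50) * tW 13 11 ^ 2 + (8) * tW 13 11 ^ 3) * ht +
      ((5) * tW 13 11 ^ 2 + (12) * tW 13 11 ^ 3 + (16) * tW 13 11 ^ 4 + (14) * tW 13 11 ^ 5 + (9) * tW 13 11 ^ 6 + (5) * tW 13 11 ^ 7 + (7) * tW 13 11 ^ 8 + (14) * tW 13 11 ^ 9 + (20) * tW 13 11 ^ 10) * hp
  · refine dlog_geomUnit hn hζ 6 (by norm_num) _ ?_
    simp [Fin.sum_univ_succ, Finset.sum_range_succ, ofNat_smul_eq_nsmul, nsmul_eq_mul]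
    linear_combination ((7)) * ht +
      ((3) + (8) * tW 13 11 ^ 1 + (17) * tW 13 11 ^ 2 + (29) * tW 13 11 ^ 3 + (38) * tW 13 11 ^ 4 + (41) * tW 13 11 ^ 5 + (39) * tW 13 11 ^ 6 + (34) * tW 13 11 ^ 7 + (25) * tW 13 11 ^ 8 + (13) * tW 13 11 ^ 9 + (4) * tW 13 11 ^ 10) * hp

end Fermat.Agent.Kummer
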