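import Fermat.Agent.Kummer.PIDBasic

set_option autoImplicit false

namespace Fermat.Agent.Kummer

open NumberField Ideal Polynomial Module InfinitePlace Nat Real

theorem exists_principal_11_23 {K : Type*} [Field K] [NumberField K]
    [IsCyclotomicExtension {11} ℚ K] :
    ∃ P ∈ primesOver (span {((23 : ℕ) : ℤ)}) (𝓞 K), Submodule.IsPrincipal P := by
  have hr1 : (((4 : ℤ) : ZMod 23)) ≠ 1 := by decide
  have hrp : (((4 : ℤ) : ZMod 23)) ^ 11 = 1 := by decide
  have : Fact (Nat.Prime 11) := ⟨by norm_num⟩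
  have : Fact (Nat.Prime 23) := ⟨by norm_num⟩
  have hζ := IsCyclotomicExtension.zeta_spec 11 ℚ K
  obtain ⟨z, hz⟩ : ∃ z, z = hζ.toInteger := ⟨_, rfl⟩
  have hΦ : 1 + z + z ^ 2 + z ^ 3 + z ^ 4 + z ^ 5 + z ^ 6 + z ^ 7 + z ^ 8 + z ^ 9 + z ^ 10 = 0 := by
    have := hζ.toInteger_isPrimitiveRoot.geom_sum_eq_zero (by norm_num)
    rw [← hz] at this
    simpa [Finset.sum_range_succ] using this
  refine exists_principal_prime_of_root 11 hζ 23 (by norm_num) 4 hr1 hrp
    (1 + z + z ^ 3)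
    (-2 - 14 * z - 17 * z ^ 2 - 12 * z ^ 3 - 5 * z ^ 4 - 9 * z ^ 5 - 10 * z ^ 6 - 16 * z ^ 7 - 6 * z ^ 8 - 15 * z ^ 9)
    (1 + 3 * z + 3 * z ^ 2 + 2 * z ^ 3 + z ^ 4 + 2 * z ^ 5 + 2 * z ^ 6 + 3 * z ^ 7 + z ^ 8 + 3 * z ^ 9)
    (3)
    (17 + 4 * z + z ^ 2) ?_ ?_ ?_
  · push_cast
    linear_combination (25 - 9 * z + 15 * z ^ 2) * hΦ
  · rw [← hz]
    push_cast
    linear_combination (-5 + 2 * z - 3 * z ^ 2) * hΦ
  · rw [← hz]
    push_cast
    ring


theorem order_check_eleven : ∀ q ∈ Finset.range 60, q.Prime → q ≠ 11 → q ∉ [23] →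
    ∀ f ∈ Finset.range 6, 0 < f → q ^ f ≤ 59 → q ^ f % 11 ≠ 1 := by
  decide +kernel

/-- If `IsCyclotomicExtension {11} ℚ K` then `𝓞 K` is a principal ideal domain. -/
theorem eleven_pid (K : Type*) [Field K] [NumberField K] [IsCyclotomicExtension {11} ℚ K] :
    IsPrincipalIdealRing (𝓞 K) := by
  have : Fact (Nat.Prime 11) := ⟨by norm_num⟩
  apply pid_of_bound 11 K 59
  · rw [minkowski_eq 11 K]
    have h1 : (4 / π) ^ ((11 - 1) / 2) < (4 / 3.14 : ℝ) ^ ((11 - 1) / 2) := by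
      gcongr
      exact Real.pi_gt_d2
    have h2 : √((11 : ℝ) ^ (11 - 2)) < 48558.8 := by
      rw [Real.sqrt_lt' (by norm_num)]
      norm_num
    have h3 : (((11 - 1)! : ℕ) : ℝ) = 3628800 := by
      norm_num [Nat.factorial]
    calc _ < (4 / 3.14 : ℝ) ^ ((11 - 1) / 2) *
            ((((11 - 1)! : ℕ) : ℝ) / ((11 - 1 : ℕ) : ℝ) ^ (11 - 1) * 48558.8) := by
          push_cast
          gcongr
      _ < _ := by
          rw [h3]
          norm_num
  · intro q hq hqp hq11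
    by_cases hex : q ∈ [23]
    · right
      simp only [List.mem_singleton] at hex
      subst hex
      exact exists_principal_11_23
    · left
      intro f hf hle
      have hf6 : f < 6 := by
        by_contra hcon
        have h1 : 2 ^ 6 ≤ 2 ^ f := Nat.pow_le_pow_right (by norm_num) (by omega)
        have h2 : 2 ^ f ≤ q ^ f := Nat.pow_le_pow_left hqp.two_le f
        omega
      exact order_check_eleven q (Finset.mem_range.mpr (by omega)) hqp hq11 hex f
        (Finset.mem_range.mpr hf6) hf hle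

end Fermat.Agent.Kummer
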