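import Fermat.Agent.Kummer.PIDBasic

set_option autoImplicit false

namespace Fermat.Agent.Kummer

open NumberField Ideal Polynomial Module InfinitePlace Nat Real

theorem exists_principal_13_53 {K : Type*} [Field K] [NumberField K]
    [IsCyclotomicExtension {13} ℚ K] :
    ∃ P ∈ primesOver (span {((53 : ℕ) : ℤ)}) (𝓞 K), Submodule.IsPrincipal P := by
  have hr1 : (((36 : ℤ) : ZMod 53)) ≠ 1 := by decide
  have hrp : (((36 : ℤ) : ZMod 53)) ^ 13 = 1 := by decide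
  have : Fact (Nat.Prime 13) := ⟨by norm_num⟩
  have : Fact (Nat.Prime 53) := ⟨by norm_num⟩
  have hζ := IsCyclotomicExtension.zeta_spec 13 ℚ K
  obtain ⟨z, hz⟩ : ∃ z, z = hζ.toInteger := ⟨_, rfl⟩
  have hΦ : 1 + z + z ^ 2 + z ^ 3 + z ^ 4 + z ^ 5 + z ^ 6 + z ^ 7 + z ^ 8 + z ^ 9 + z ^ 10 + z ^ 11 + z ^ 12 = 0 := by
    have := hζ.toInteger_isPrimitiveRoot.geom_sum_eq_zero (by norm_num)
    rw [← hz] at this
    simpa [Finset.sum_range_succ] using this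
  refine exists_principal_prime_of_root 13 hζ 53 (by norm_num) 36 hr1 hrp
    (1 + z + z ^ 3)
    (1 - 24 * z - 35 * z ^ 2 - 25 * z ^ 3 - 10 * z ^ 4 - 14 * z ^ 5 - 20 * z ^ 6 - 29 * z ^ 7 - 16 * z ^ 8 - 23 * z ^ 9 - 7 * z ^ 10 - 36 * z ^ 11)
    (17 * z + 24 * z ^ 2 + 17 * z ^ 3 + 7 * z ^ 4 + 10 * z ^ 5 + 14 * z ^ 6 + 20 * z ^ 7 + 11 * z ^ 8 + 16 * z ^ 9 + 5 * z ^ 10 + 25 * z ^ 11)
    (881)
    (1297 + 36 * z + z ^ 2) ?_ ?_ ?_
  · push_cast
    linear_combination (52 - 29 * z + 36 * z ^ 2) * hΦ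
  · rw [← hz]
    push_cast
    linear_combination (-36 + 20 * z - 25 * z ^ 2) * hΦ
  · rw [← hz]
    push_cast
    ring


theorem exists_principal_13_79 {K : Type*} [Field K] [NumberField K]
    [IsCyclotomicExtension {13} ℚ K] :
    ∃ P ∈ primesOver (span {((79 : ℕ) : ℤ)}) (𝓞 K), Submodule.IsPrincipal P := by
  have hr1 : (((64 : ℤ) : ZMod 79)) ≠ 1 := by decide
  have hrp : (((64 : ℤ) : ZMod 79)) ^ 13 = 1 := by decide
  have : Fact (Nat.Prime 13) := ⟨by norm_num⟩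
  have : Fact (Nat.Prime 79) := ⟨by norm_num⟩
  have hζ := IsCyclotomicExtension.zeta_spec 13 ℚ K
  obtain ⟨z, hz⟩ : ∃ z, z = hζ.toInteger := ⟨_, rfl⟩
  have hΦ : 1 + z + z ^ 2 + z ^ 3 + z ^ 4 + z ^ 5 + z ^ 6 + z ^ 7 + z ^ 8 + z ^ 9 + z ^ 10 + z ^ 11 + z ^ 12 = 0 := by
    have := hζ.toInteger_isPrimitiveRoot.geom_sum_eq_zero (by norm_num)
    rw [← hz] at this
    simpa [Finset.sum_range_succ] using this
  refine exists_principal_prime_of_root 13 hζ 79 (by norm_num) 64 hr1 hrp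
    (1 + z - z ^ 4)
    (24 - 25 * z - 27 * z ^ 2 + 10 * z ^ 3 - 3 * z ^ 4 - 39 * z ^ 5 - 5 * z ^ 6 - 2 * z ^ 7 - 18 * z ^ 8 - 38 * z ^ 9 + 16 * z ^ 10 - 35 * z ^ 11)
    (-19 + 21 * z + 22 * z ^ 2 - 8 * z ^ 3 + 3 * z ^ 4 + 32 * z ^ 5 + 4 * z ^ 6 + 2 * z ^ 7 + 15 * z ^ 8 + 31 * z ^ 9 - 13 * z ^ 10 + 29 * z ^ 11)
    (-212369)
    (-262143 - 4096 * z - 64 * z ^ 2 - z ^ 3) ?_ ?_ ?_
  · push_cast
    linear_combination (55 - 54 * z + 51 * z ^ 2 - 35 * z ^ 3) * hΦ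
  · rw [← hz]
    push_cast
    linear_combination (-45 + 44 * z - 42 * z ^ 2 + 29 * z ^ 3) * hΦ
  · rw [← hz]
    push_cast
    ring


theorem exists_principal_13_131 {K : Type*} [Field K] [NumberField K]
    [IsCyclotomicExtension {13} ℚ K] :
    ∃ P ∈ primesOver (span {((131 : ℕ) : ℤ)}) (𝓞 K), Submodule.IsPrincipal P := by
  have hr1 : (((80 : ℤ) : ZMod 131)) ≠ 1 := by decide
  have hrp : (((80 : ℤ) : ZMod 131)) ^ 13 = 1 := by decide
  have : Fact (Nat.Prime 13) := ⟨by norm_num⟩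
  have : Fact (Nat.Prime 131) := ⟨by norm_num⟩
  have hζ := IsCyclotomicExtension.zeta_spec 13 ℚ K
  obtain ⟨z, hz⟩ : ∃ z, z = hζ.toInteger := ⟨_, rfl⟩
  have hΦ : 1 + z + z ^ 2 + z ^ 3 + z ^ 4 + z ^ 5 + z ^ 6 + z ^ 7 + z ^ 8 + z ^ 9 + z ^ 10 + z ^ 11 + z ^ 12 = 0 := by
    have := hζ.toInteger_isPrimitiveRoot.geom_sum_eq_zero (by norm_num)
    rw [← hz] at this
    simpa [Finset.sum_range_succ] using this
  refine exists_principal_prime_of_root 13 hζ 131 (by norm_num) 80 hr1 hrp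
    (1 - z - z ^ 3)
    (111 + 78 * z + 17 * z ^ 2 + 67 * z ^ 3 + 84 * z ^ 4 + 40 * z ^ 5 + 46 * z ^ 6 + 69 * z ^ 7 + 48 * z ^ 8 + 33 * z ^ 9 + 41 * z ^ 10 + 28 * z ^ 11)
    (-68 - 47 * z - 10 * z ^ 2 - 41 * z ^ 3 - 51 * z ^ 4 - 24 * z ^ 5 - 28 * z ^ 6 - 42 * z ^ 7 - 29 * z ^ 8 - 20 * z ^ 9 - 25 * z ^ 10 - 17 * z ^ 11)
    (-3909)
    (-6401 - 80 * z - z ^ 2) ?_ ?_ ?_
  · push_cast
    linear_combination (20 + 13 * z + 28 * z ^ 2) * hΦ
  · rw [← hz]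
    push_cast
    linear_combination (-12 - 8 * z - 17 * z ^ 2) * hΦ
  · rw [← hz]
    push_cast
    ring


theorem exists_principal_13_157 {K : Type*} [Field K] [NumberField K]
    [IsCyclotomicExtension {13} ℚ K] :
    ∃ P ∈ primesOver (span {((157 : ℕ) : ℤ)}) (𝓞 K), Submodule.IsPrincipal P := by
  have hr1 : (((75 : ℤ) : ZMod 157)) ≠ 1 := by decide
  have hrp : (((75 : ℤ) : ZMod 157)) ^ 13 = 1 := by decide
  have : Fact (Nat.Prime 13) := ⟨by norm_num⟩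
  have : Fact (Nat.Prime 157) := ⟨by norm_num⟩
  have hζ := IsCyclotomicExtension.zeta_spec 13 ℚ K
  obtain ⟨z, hz⟩ : ∃ z, z = hζ.toInteger := ⟨_, rfl⟩
  have hΦ : 1 + z + z ^ 2 + z ^ 3 + z ^ 4 + z ^ 5 + z ^ 6 + z ^ 7 + z ^ 8 + z ^ 9 + z ^ 10 + z ^ 11 + z ^ 12 = 0 := by
    have := hζ.toInteger_isPrimitiveRoot.geom_sum_eq_zero (by norm_num)
    rw [← hz] at this
    simpa [Finset.sum_range_succ] using this
  refine exists_principal_prime_of_root 13 hζ 157 (by norm_num) 75 hr1 hrp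
    (1 - z + z ^ 2 + z ^ 4)
    (89 + 86 * z + 42 * z ^ 2 + 77 * z ^ 3 + 67 * z ^ 4 + 25 * z ^ 5 + 37 * z ^ 6 + 56 * z ^ 7 + 73 * z ^ 8 + 113 * z ^ 9 + 124 * z ^ 10 + 76 * z ^ 11)
    (-43 - 41 * z - 20 * z ^ 2 - 37 * z ^ 3 - 32 * z ^ 4 - 12 * z ^ 5 - 18 * z ^ 6 - 27 * z ^ 7 - 35 * z ^ 8 - 54 * z ^ 9 - 59 * z ^ 10 - 36 * z ^ 11)
    (201568)
    (421949 + 5626 * z + 75 * z ^ 2 + z ^ 3) ?_ ?_ ?_
  · push_cast
    linear_combination (68 - 65 * z - 48 * z ^ 2 - 76 * z ^ 3) * hΦ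
  · rw [← hz]
    push_cast
    linear_combination (-32 + 31 * z + 23 * z ^ 2 + 36 * z ^ 3) * hΦ
  · rw [← hz]
    push_cast
    ring


theorem exists_principal_13_3 {K : Type*} [Field K] [NumberField K]
    [IsCyclotomicExtension {13} ℚ K] :
    ∃ P ∈ primesOver (span {((3 : ℕ) : ℤ)}) (𝓞 K), Submodule.IsPrincipal P := by
  have hroot : ∀ x : ZMod 3, ¬ x ^ 3 - x - 1 = 0 := by decide
  have : Fact (Nat.Prime 13) := ⟨by norm_num⟩
  have : Fact (Nat.Prime 3) := ⟨by norm_num⟩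
  have hζ := IsCyclotomicExtension.zeta_spec 13 ℚ K
  obtain ⟨z, hz⟩ : ∃ z, z = hζ.toInteger := ⟨_, rfl⟩
  have hΦ : 1 + z + z ^ 2 + z ^ 3 + z ^ 4 + z ^ 5 + z ^ 6 + z ^ 7 + z ^ 8 + z ^ 9 + z ^ 10
      + z ^ 11 + z ^ 12 = 0 := by
    have := hζ.toInteger_isPrimitiveRoot.geom_sum_eq_zero (by norm_num)
    rw [← hz] at this
    simpa [Finset.sum_range_succ] using this
  have hmap : (X ^ 3 - X - 1 : ℤ[X]).map (Int.castRingHom (ZMod 3)) = X ^ 3 - X - 1 := by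
    simp
  have hdeg : (X ^ 3 - X - 1 : (ZMod 3)[X]).natDegree = 3 := by
    compute_degree!
  have hmonic : (X ^ 3 - X - 1 : (ZMod 3)[X]).Monic := by
    monicity!
  have hirr : Irreducible (X ^ 3 - X - 1 : (ZMod 3)[X]) := by
    apply irreducible_of_degree_le_three_of_not_isRoot
    · rw [hdeg]; decide
    · intro x
      simp only [IsRoot.def, eval_sub, eval_pow, eval_X, eval_one]
      exact hroot x
  have hdvd : (X ^ 3 - X - 1 : (ZMod 3)[X]) ∣ cyclotomic 13 (ZMod 3) := by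
    refine ⟨-1 - X ^ 2 - X ^ 3 + X ^ 5 - X ^ 7 + X ^ 8 + X ^ 9, ?_⟩
    have h3 : (3 : (ZMod 3)[X]) = 0 := by
      have : ((3 : ℕ) : (ZMod 3)[X]) = 0 := CharP.cast_eq_zero _ 3
      exact_mod_cast this
    rw [cyclotomic_prime]
    simp only [Finset.sum_range_succ, Finset.sum_range_zero]
    linear_combination (X ^ 5 + X ^ 6 + X ^ 9 + X ^ 10) * h3
  have hmem := span_pair_mem_primesOver 13 hζ 3 (X ^ 3 - X - 1)
    (by rw [hmap]; exact hirr) (by rw [hmap]; exact hmonic) (by rw [hmap]; exact hdvd)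
  have haeval : aeval hζ.toInteger (X ^ 3 - X - 1 : ℤ[X]) = z ^ 3 - z - 1 := by
    rw [hz]; simp
  rw [haeval, span_pair_eq_span_singleton (α := 1 + z - z ^ 3)
    (β := -1 - z ^ 2 - z ^ 3 - 2 * z ^ 5 - z ^ 7 - 2 * z ^ 8 + z ^ 9 - 3 * z ^ 10)
    (γ := -1) (u := 0) (v := -1) ?_ (by ring) (by ring)] at hmem
  · exact ⟨_, hmem, ⟨_, rfl⟩⟩
  · push_cast
    linear_combination (4 - 3 * z) * hΦ

theorem order_check_thirteen : ∀ q ∈ Finset.range 313, q.Prime → q ≠ 13 →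
    q ∉ [3, 53, 79, 131, 157] →
    ∀ f ∈ Finset.range 9, 0 < f → q ^ f ≤ 312 → q ^ f % 13 ≠ 1 := by
  decide +kernel

/-- If `IsCyclotomicExtension {13} ℚ K` then `𝓞 K` is a principal ideal domain. -/
theorem thirteen_pid (K : Type*) [Field K] [NumberField K] [IsCyclotomicExtension {13} ℚ K] :
    IsPrincipalIdealRing (𝓞 K) := by
  have : Fact (Nat.Prime 13) := ⟨by norm_num⟩
  apply pid_of_bound 13 K 312
  · rw [minkowski_eq 13 K]
    have h1 : (4 / π) ^ ((13 - 1) / 2) < (4 / 3.14 : ℝ) ^ ((13 - 1) / 2) := by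
      gcongr
      exact Real.pi_gt_d2
    have h2 : √((13 : ℝ) ^ (13 - 2)) < 1338717 := by
      rw [Real.sqrt_lt' (by norm_num)]
      norm_num
    have h3 : (((13 - 1)! : ℕ) : ℝ) = 479001600 := by
      norm_num [Nat.factorial]
    calc _ < (4 / 3.14 : ℝ) ^ ((13 - 1) / 2) *
            ((((13 - 1)! : ℕ) : ℝ) / ((13 - 1 : ℕ) : ℝ) ^ (13 - 1) * 1338717) := by
          push_cast
          gcongr
      _ < _ := by
          rw [h3]
          norm_num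
  · intro q hq hqp hq13
    by_cases hex : q ∈ [3, 53, 79, 131, 157]
    · right
      simp only [List.mem_cons, List.not_mem_nil, or_false] at hex
      rcases hex with rfl | rfl | rfl | rfl | rfl
      · exact exists_principal_13_3
      · exact exists_principal_13_53
      · exact exists_principal_13_79
      · exact exists_principal_13_131
      · exact exists_principal_13_157
    · left
      intro f hf hle
      have hf9 : f < 9 := by
        by_contra hcon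
        have h1 : 2 ^ 9 ≤ 2 ^ f := Nat.pow_le_pow_right (by norm_num) (by omega)
        have h2 : 2 ^ f ≤ q ^ f := Nat.pow_le_pow_left hqp.two_le f
        omega
      exact order_check_thirteen q (Finset.mem_range.mpr (by omega)) hqp hq13 hex f
        (Finset.mem_range.mpr hf9) hf hle

end Fermat.Agent.Kummer
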