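import Fermat.Agent.Kummer.PIDBasic

set_option autoImplicit false

namespace Fermat.Agent.Kummer

open NumberField Ideal Polynomial Module InfinitePlace Nat Real

/-- If `IsCyclotomicExtension {7} ℚ K` then `𝓞 K` is a principal ideal domain. -/
theorem seven_pid (K : Type*) [Field K] [NumberField K] [IsCyclotomicExtension {7} ℚ K] :
    IsPrincipalIdealRing (𝓞 K) := by
  have : Fact (Nat.Prime 7) := ⟨by norm_num⟩
  apply pid_of_bound 7 K 4
  · rw [minkowski_eq 7 K]
    have h1 : (4 / π) ^ ((7 - 1) / 2) < (4 / 3.14 : ℝ) ^ ((7 - 1) / 2) := by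
      gcongr
      exact Real.pi_gt_d2
    have h2 : √((7 : ℝ) ^ (7 - 2)) < 129.65 := by
      rw [Real.sqrt_lt' (by norm_num)]
      norm_num
    have h3 : (((7 - 1)! : ℕ) : ℝ) = 720 := by
      norm_num [Nat.factorial]
    calc _ < (4 / 3.14 : ℝ) ^ ((7 - 1) / 2) *
            ((((7 - 1)! : ℕ) : ℝ) / ((7 - 1 : ℕ) : ℝ) ^ (7 - 1) * 129.65) := by
          push_cast
          gcongr
      _ < _ := by
          rw [h3]
          norm_num
  · intro q hq hqp hq7
    left
    intro f hf hle
    interval_cases q
    · exact absurd hqp (by norm_num)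
    · exact absurd hqp (by norm_num)
    · have : f < 3 := by
        by_contra hcon
        have : 2 ^ 3 ≤ 2 ^ f := Nat.pow_le_pow_right (by norm_num) (by omega)
        omega
      interval_cases f <;> norm_num
    · have : f < 2 := by
        by_contra hcon
        have : 3 ^ 2 ≤ 3 ^ f := Nat.pow_le_pow_right (by norm_num) (by omega)
        omega
      interval_cases f <;> norm_num
    · exact absurd hqp (by norm_num)

end Fermat.Agent.Kummer
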