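import Mathlib

set_option autoImplicit false

namespace Fermat.Agent.Kummer

open NumberField Ideal Polynomial Module InfinitePlace Nat Real

section
variable (p : ℕ) [hp : Fact p.Prime] {K : Type*} [Field K] [NumberField K]
  [hK : IsCyclotomicExtension {p} ℚ K] {ζ : K} (hζ : IsPrimitiveRoot ζ p)

theorem liesOver_span_zeta_sub_one_prime :
    (span {hζ.toInteger - 1}).LiesOver (span {(p : ℤ)}) := by
  rw [← pow_one p] at hK hζ
  exact IsCyclotomicExtension.Rat.liesOver_span_zeta_sub_one p 0 hζ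

end

variable (p : ℕ) [hp : Fact p.Prime] (K : Type*) [Field K] [NumberField K]
  [hK : IsCyclotomicExtension {p} ℚ K]

/-- General criterion: PID from an upper bound `B` of the Minkowski bound. -/
theorem pid_of_bound (B : ℕ)
    (hB : (4 / π) ^ nrComplexPlaces K *
      ((finrank ℚ K)! / (finrank ℚ K) ^ (finrank ℚ K) * √|discr K|) < B + 1)
    (h : ∀ q ≤ B, q.Prime → q ≠ p →
      (∀ f, 0 < f → q ^ f ≤ B → q ^ f % p ≠ 1) ∨
        ∃ P ∈ primesOver (span {(q : ℤ)}) (𝓞 K), Submodule.IsPrincipal P) :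
    IsPrincipalIdealRing (𝓞 K) := by
  have : IsGalois ℚ K := IsCyclotomicExtension.isGalois {p} ℚ K
  apply RingOfIntegers.isPrincipalIdealRing_of_isPrincipal_of_lt_or_isPrincipal_of_mem_primesOver_of_mem_Icc
  intro q hq hqp
  have hfl : ⌊(4 / π) ^ nrComplexPlaces K *
      ((finrank ℚ K)! / (finrank ℚ K) ^ (finrank ℚ K) * √|discr K|)⌋₊ ≤ B := by
    rw [← Nat.lt_succ_iff, Nat.floor_lt (by positivity)]
    exact_mod_cast hB
  have hqB : q ≤ B := (Finset.mem_Icc.mp hq).2.trans hfl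
  by_cases hqp' : q = p
  · subst hqp'
    have hζ := hK.zeta_spec
    exact ⟨span {hζ.toInteger - 1},
      ⟨IsCyclotomicExtension.Rat.isPrime_span_zeta_sub_one' q hζ,
        liesOver_span_zeta_sub_one_prime q hζ⟩,
      Or.inr ⟨_, rfl⟩⟩
  · rcases h q hqB hqp hqp' with h1 | ⟨P, hP, hP'⟩
    · have : Fact q.Prime := ⟨hqp⟩
      obtain ⟨⟨P, hP1, hP2⟩⟩ := (span {(q : ℤ)}).nonempty_primesOver (S := 𝓞 K)
      refine ⟨P, ⟨hP1, hP2⟩, Or.inl ?_⟩
      have hnd : ¬ q ∣ p := by
        intro hd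
        exact hqp' ((Nat.prime_dvd_prime_iff_eq hqp hp.out).mp hd)
      rw [IsCyclotomicExtension.Rat.inertiaDeg_eq_of_not_dvd q K P hnd]
      by_contra hcon
      rw [not_lt] at hcon
      have hpos : 0 < orderOf (q : ZMod p) := by
        apply orderOf_pos_iff.mpr
        have : IsUnit (q : ZMod p) := by
          rw [ZMod.isUnit_iff_coprime]
          exact (Nat.coprime_primes hqp hp.out).mpr hqp'
        exact this.isOfFinOrder
      refine h1 _ hpos (hcon.trans hfl) ?_
      have h2 : ((q ^ orderOf (q : ZMod p) : ℕ) : ZMod p) = ((1 : ℕ) : ZMod p) := by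
        push_cast
        exact pow_orderOf_eq_one _
      rw [ZMod.natCast_eq_natCast_iff'] at h2
      rw [h2]
      exact Nat.mod_eq_of_lt hp.out.one_lt
    · exact ⟨P, hP, Or.inr hP'⟩

section KD

open RingOfIntegers

variable (p : ℕ) [hp : Fact p.Prime] {K : Type*} [Field K] [NumberField K]
  [hK : IsCyclotomicExtension {p} ℚ K] {ζ : K} (hζ : IsPrimitiveRoot ζ p)

theorem span_pair_mem_primesOver (q : ℕ) [hq : Fact q.Prime] (Q : ℤ[X])
    (hirr : Irreducible (Q.map (Int.castRingHom (ZMod q))))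
    (hmonic : (Q.map (Int.castRingHom (ZMod q))).Monic)
    (hdvd : Q.map (Int.castRingHom (ZMod q)) ∣ cyclotomic p (ZMod q)) :
    span {(q : 𝓞 K), aeval hζ.toInteger Q} ∈ primesOver (span {(q : ℤ)}) (𝓞 K) := by
  have h₁ : ¬ q ∣ exponent hζ.toInteger := by
    rw [exponent_eq_one_iff.mpr <| IsCyclotomicExtension.Rat.adjoin_singleton_eq_top hζ]
    exact hq.out.not_dvd_one
  have hmin : minpoly ℤ hζ.toInteger = cyclotomic p ℤ := by
    rw [cyclotomic_eq_minpoly hζ hp.out.pos]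
    exact (RingOfIntegers.minpoly_coe hζ.toInteger).symm
  have hQ : Q.map (Int.castRingHom (ZMod q)) ∈ monicFactorsMod hζ.toInteger q := by
    rw [Multiset.mem_toFinset, Polynomial.mem_normalizedFactors_iff
      (map_monic_ne_zero (minpoly.monic hζ.toInteger.isIntegral))]
    refine ⟨hirr, hmonic, ?_⟩
    rw [hmin, map_cyclotomic_int]
    exact hdvd
  rw [← NumberField.Ideal.primesOverSpanEquivMonicFactorsMod_symm_apply_eq_span h₁ hQ]
  exact ((NumberField.Ideal.primesOverSpanEquivMonicFactorsMod h₁).symm ⟨_, hQ⟩).prop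

theorem span_pair_eq_span_singleton {R : Type*} [CommRing R] {a x α β γ u v : R}
    (h1 : a = α * β) (h2 : x = α * γ) (h3 : α = a * u + x * v) :
    span {a, x} = span {α} := by
  apply le_antisymm
  · rw [span_le]
    intro y hy
    rcases hy with rfl | hy
    · exact mem_span_singleton.mpr ⟨β, h1⟩
    · rw [Set.mem_singleton_iff] at hy
      subst hy
      exact mem_span_singleton.mpr ⟨γ, h2⟩
  · rw [span_singleton_le_iff_mem, mem_span_pair]
    exact ⟨u, v, by rw [h3]; ring⟩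



theorem exists_principal_prime_of_root (q : ℕ) [hq : Fact q.Prime] (hqp : q ≠ p) (r : ℤ)
    (hr1 : (r : ZMod q) ≠ 1) (hrp : (r : ZMod q) ^ p = 1) (α β γ u v : 𝓞 K)
    (h1 : (q : 𝓞 K) = α * β) (h2 : hζ.toInteger - (r : 𝓞 K) = α * γ)
    (h3 : α = (q : 𝓞 K) * u + (hζ.toInteger - (r : 𝓞 K)) * v) :
    ∃ P ∈ primesOver (span {(q : ℤ)}) (𝓞 K), Submodule.IsPrincipal P := by
  have hmap : (X - C r : ℤ[X]).map (Int.castRingHom (ZMod q)) = X - C (r : ZMod q) := by
    simp
  have hne : NeZero ((p : ℕ) : ZMod q) := by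
    refine ⟨fun h0 => ?_⟩
    rw [ZMod.natCast_eq_zero_iff] at h0
    exact hqp ((Nat.prime_dvd_prime_iff_eq hq.out hp.out).mp h0)
  have hmem := span_pair_mem_primesOver p hζ q (X - C r)
    (by rw [hmap]; exact irreducible_X_sub_C _) (by rw [hmap]; exact monic_X_sub_C _)
    (by
      rw [hmap, dvd_iff_isRoot, isRoot_cyclotomic_iff]
      exact IsPrimitiveRoot.iff_orderOf.mpr (orderOf_eq_prime hrp hr1))
  have haeval : aeval hζ.toInteger (X - C r : ℤ[X]) = hζ.toInteger - (r : 𝓞 K) := by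
    simp
  rw [haeval, span_pair_eq_span_singleton h1 h2 h3] at hmem
  exact ⟨_, hmem, ⟨α, rfl⟩⟩

end KD

section Bound

variable (p : ℕ) [hp : Fact p.Prime] (K : Type*) [Field K] [NumberField K]
  [hK : IsCyclotomicExtension {p} ℚ K]

theorem minkowski_eq :
    (4 / π) ^ nrComplexPlaces K *
      ((finrank ℚ K)! / (finrank ℚ K) ^ (finrank ℚ K) * √|discr K|) =
    (4 / π) ^ ((p - 1) / 2) *
      (((p - 1)! : ℕ) / ((p - 1 : ℕ) : ℝ) ^ (p - 1) * √((p : ℝ) ^ (p - 2))) := by
  rw [IsCyclotomicExtension.Rat.discr_prime p K, IsCyclotomicExtension.finrank (n := p) K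
    (cyclotomic.irreducible_rat hp.out.pos),
    IsCyclotomicExtension.Rat.nrComplexPlaces_eq_totient_div_two p, totient_prime hp.out]
  congr 3
  push_cast
  rw [abs_mul, abs_pow, abs_pow, abs_neg, abs_one, one_pow, one_mul, Nat.abs_cast]

end Bound

end Fermat.Agent.Kummer
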