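/-
Sophie Germain's theorem (first case of Fermat's Last Theorem over `ℤ`), with the
auxiliary primes needed for the exponents 5, 7, 11, 13.
-/
import Mathlib

set_option autoImplicit false

namespace Fermat.Agent.Kummer

open Finset

section Cofactor

variable {R S : Type*} [CommRing R] [CommRing S]

/-- The cofactor `(y ^ p + z ^ p) / (y + z)` (for odd `p`). -/
def cof (p : ℕ) (y z : R) : R := ∑ i ∈ range p, y ^ i * (-z) ^ (p - 1 - i)

lemma cof_mul {p : ℕ} (hp : Odd p) (y z : R) : cof p y z * (y + z) = y ^ p + z ^ p := by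
  have h := (Commute.all y (-z)).geom_sum₂_mul p
  rw [hp.neg_pow] at h
  simpa [cof, sub_neg_eq_add] using h

lemma map_cof (f : R →+* S) (p : ℕ) (y z : R) : f (cof p y z) = cof p (f y) (f z) := by
  simp [cof, map_sum]

lemma cof_of_add_eq_zero (p : ℕ) {y z : R} (h : y + z = 0) :
    cof p y z = p * y ^ (p - 1) := by
  have hz : -z = y := by linear_combination -h
  simp [cof, hz, geom_sum₂_self]

lemma cof_zero_left {p : ℕ} (hp : Odd p) (z : R) : cof p 0 z = z ^ (p - 1) := by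
  obtain ⟨k, rfl⟩ := hp
  rw [cof, Finset.sum_eq_single 0]
  · simp
  · intro i _ hi
    simp [hi]
  · intro h
    simp at h

end Cofactor

lemma exists_pow_of_eq {p : ℕ} (hp : p.Prime) (hodd : Odd p) {x y z : ℤ}
    (h : x ^ p + y ^ p + z ^ p = 0) (hyz : IsCoprime y z) (hx : ¬ (p : ℤ) ∣ x) :
    (∃ a, y + z = a ^ p) ∧ ∃ α, cof p y z = α ^ p := by
  have hmul : cof p y z * (y + z) = (-x) ^ p := by
    rw [cof_mul hodd, hodd.neg_pow]; linear_combination h
  have hcop : IsCoprime (cof p y z) (y + z) := by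
    apply isCoprime_of_prime_dvd
    · rintro ⟨h1, -⟩
      rw [h1, zero_mul] at hmul
      have : x = 0 := by
        have := pow_eq_zero_iff (hp.ne_zero) |>.mp hmul.symm
        simpa using this
      exact hx (this ▸ dvd_zero _)
    · intro r hr h1 h2
      have h2' : r ∣ y - (-z) := by simpa using h2
      have h3 : r ∣ (p : ℤ) * (-z) ^ (p - 1) := (dvd_geom_sum₂_iff_of_dvd_sub h2').mp h1
      rcases hr.dvd_or_dvd h3 with h4 | h4
      · -- r ∣ p, and r ∣ (-x)^p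
        have h5 : r ∣ (-x) ^ p := hmul ▸ Dvd.dvd.mul_left h2 _
        have h6 : r ∣ x := by simpa using hr.dvd_of_dvd_pow h5
        have hpp : Prime (p : ℤ) := Nat.prime_iff_prime_int.mp hp
        have h7 : Associated r (p : ℤ) := hr.associated_of_dvd hpp h4
        exact hx (h7.symm.dvd.trans h6)
      · have h5 : r ∣ z := by simpa using hr.dvd_of_dvd_pow h4
        have h6 : r ∣ y := by
          have := dvd_sub h2 h5
          simpa using this
        exact hr.not_isUnit (hyz.isUnit_of_dvd' h6 h5)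
  obtain ⟨⟨α, hα⟩, ⟨a, ha⟩⟩ := Int.eq_pow_of_mul_eq_pow_odd hcop hodd hmul
  exact ⟨⟨a, ha⟩, ⟨α, hα⟩⟩

lemma cast_ne_zero_of_isCoprime {q : ℕ} [Fact q.Prime] {x y : ℤ} (hxy : IsCoprime x y)
    (hx : (x : ZMod q) = 0) : (y : ZMod q) ≠ 0 := by
  intro hy
  rw [ZMod.intCast_zmod_eq_zero_iff_dvd] at hx hy
  have := hxy.isUnit_of_dvd' hx hy
  have hq : Prime (q : ℤ) := Nat.prime_iff_prime_int.mp Fact.out
  exact hq.not_isUnit this

lemma sg_aux {p q : ℕ} (hp : p.Prime) (hodd : Odd p) [Fact q.Prime]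
    (h1 : ∀ u v w : ZMod q, u ^ p + v ^ p + w ^ p = 0 → u = 0 ∨ v = 0 ∨ w = 0)
    (h2 : ∀ u : ZMod q, u ^ p ≠ (p : ZMod q))
    {x y z : ℤ} (h : x ^ p + y ^ p + z ^ p = 0)
    (hxy : IsCoprime x y) (hyz : IsCoprime y z) (hzx : IsCoprime z x)
    (hpx : ¬ (p : ℤ) ∣ x) (hpy : ¬ (p : ℤ) ∣ y) (hpz : ¬ (p : ℤ) ∣ z)
    (hq : (x : ZMod q) = 0) : False := by
  obtain ⟨⟨a, ha⟩, ⟨α, hα⟩⟩ := exists_pow_of_eq hp hodd h hyz hpx
  obtain ⟨⟨b, hb⟩, -⟩ := exists_pow_of_eq hp hodd (x := y) (y := z) (z := x)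
    (by linear_combination h) hzx hpy
  obtain ⟨⟨c, hc⟩, ⟨γ, hγ⟩⟩ := exists_pow_of_eq hp hodd (x := z) (y := x) (z := y)
    (by linear_combination h) hxy hpz
  have hy0 : (y : ZMod q) ≠ 0 := cast_ne_zero_of_isCoprime hxy hq
  have hz0 : (z : ZMod q) ≠ 0 := cast_ne_zero_of_isCoprime hzx.symm hq
  have ha' : (y : ZMod q) + z = (a : ZMod q) ^ p := by exact_mod_cast congrArg (Int.cast : ℤ → ZMod q) ha
  have hb' : (z : ZMod q) + x = (b : ZMod q) ^ p := by exact_mod_cast congrArg (Int.cast : ℤ → ZMod q) hb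
  have hc' : (x : ZMod q) + y = (c : ZMod q) ^ p := by exact_mod_cast congrArg (Int.cast : ℤ → ZMod q) hc
  have hsum : (b : ZMod q) ^ p + (c : ZMod q) ^ p + (-(a : ZMod q)) ^ p = 0 := by
    rw [hodd.neg_pow, ← ha', ← hb', ← hc', hq]; ring
  have hpne : p ≠ 0 := hp.ne_zero
  rcases h1 _ _ _ hsum with hb0 | hc0 | ha0
  · rw [hb0, zero_pow hpne, hq, add_zero] at hb'
    exact hz0 hb'
  · rw [hc0, zero_pow hpne, hq, zero_add] at hc'
    exact hy0 hc'
  · have ha0' : (a : ZMod q) = 0 := by simpa using ha0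
    rw [ha0', zero_pow hpne] at ha'
    have hα' : cof p (y : ZMod q) (z : ZMod q) = (α : ZMod q) ^ p := by
      have := congrArg (Int.castRingHom (ZMod q)) hα
      rw [map_cof] at this
      simpa using this
    have hγ' : cof p (x : ZMod q) (y : ZMod q) = (γ : ZMod q) ^ p := by
      have := congrArg (Int.castRingHom (ZMod q)) hγ
      rw [map_cof] at this
      simpa using this
    rw [cof_of_add_eq_zero p ha'] at hα'
    rw [hq, cof_zero_left hodd] at hγ'
    have hγ0 : (γ : ZMod q) ≠ 0 := by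
      intro h0
      rw [h0, zero_pow hpne] at hγ'
      exact hy0 (pow_eq_zero_iff (n := p - 1) (by
        have := hp.two_le; omega) |>.mp hγ')
    apply h2 ((α : ZMod q) / γ)
    rw [div_pow, ← hα', ← hγ']
    field_simp

/-- **Sophie Germain's theorem.** -/
theorem sophie_germain {p q : ℕ} (hp : p.Prime) (hodd : Odd p) [Fact q.Prime]
    (h1 : ∀ u v w : ZMod q, u ^ p + v ^ p + w ^ p = 0 → u = 0 ∨ v = 0 ∨ w = 0)
    (h2 : ∀ u : ZMod q, u ^ p ≠ (p : ZMod q))
    {x y z : ℤ} (hxy : IsCoprime x y) (hyz : IsCoprime y z) (hzx : IsCoprime z x)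
    (hpxyz : ¬ (p : ℤ) ∣ x * y * z) : x ^ p + y ^ p + z ^ p ≠ 0 := by
  intro h
  have hpx : ¬ (p : ℤ) ∣ x := fun hd => hpxyz ((hd.mul_right y).mul_right z)
  have hpy : ¬ (p : ℤ) ∣ y := fun hd => hpxyz ((hd.mul_left x).mul_right z)
  have hpz : ¬ (p : ℤ) ∣ z := fun hd => hpxyz (hd.mul_left (x * y))
  have hcast : (x : ZMod q) ^ p + (y : ZMod q) ^ p + (z : ZMod q) ^ p = 0 := by
    exact_mod_cast congrArg (Int.cast : ℤ → ZMod q) h
  rcases h1 _ _ _ hcast with hx | hy | hz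
  · exact sg_aux hp hodd h1 h2 h hxy hyz hzx hpx hpy hpz hx
  · exact sg_aux hp hodd h1 h2 (x := y) (y := z) (z := x) (by linear_combination h)
      hyz hzx hxy hpy hpz hpx hy
  · exact sg_aux hp hodd h1 h2 (x := z) (y := x) (z := y) (by linear_combination h)
      hzx hxy hyz hpz hpx hpy hz


lemma sg_h1_five : ∀ u v w : ZMod 11, u ^ 5 + v ^ 5 + w ^ 5 = 0 → u = 0 ∨ v = 0 ∨ w = 0 := by
  have key : ∀ u : ZMod 11, u = 0 ∨ u ^ 5 = 1 ∨ u ^ 5 = -1 := by decide
  intro u v w h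
  rcases key u with hu | hu | hu
  · exact Or.inl hu
  all_goals
    rcases key v with hv | hv | hv
    · exact Or.inr (Or.inl hv)
    all_goals
      rcases key w with hw | hw | hw
      · exact Or.inr (Or.inr hw)
      all_goals
        rw [hu, hv, hw] at h
        exact absurd h (by decide)

lemma sg_h2_five : ∀ u : ZMod 11, u ^ 5 ≠ ((5 : ℕ) : ZMod 11) := by decide

lemma sg_h1_eleven : ∀ u v w : ZMod 23, u ^ 11 + v ^ 11 + w ^ 11 = 0 → u = 0 ∨ v = 0 ∨ w = 0 := by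
  have key : ∀ u : ZMod 23, u = 0 ∨ u ^ 11 = 1 ∨ u ^ 11 = -1 := by decide
  intro u v w h
  rcases key u with hu | hu | hu
  · exact Or.inl hu
  all_goals
    rcases key v with hv | hv | hv
    · exact Or.inr (Or.inl hv)
    all_goals
      rcases key w with hw | hw | hw
      · exact Or.inr (Or.inr hw)
      all_goals
        rw [hu, hv, hw] at h
        exact absurd h (by decide)

lemma sg_h2_eleven : ∀ u : ZMod 23, u ^ 11 ≠ ((11 : ℕ) : ZMod 23) := by decide

lemma sg_h1_seven : ∀ u v w : ZMod 29, u ^ 7 + v ^ 7 + w ^ 7 = 0 → u = 0 ∨ v = 0 ∨ w = 0 := by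
  have key : ∀ u : ZMod 29, u = 0 ∨ u ^ 7 = 1 ∨ u ^ 7 = -1 ∨ u ^ 7 = 12 ∨ u ^ 7 = -12 := by decide
  intro u v w h
  rcases key u with hu | hu | hu | hu | hu
  · exact Or.inl hu
  all_goals
    rcases key v with hv | hv | hv | hv | hv
    · exact Or.inr (Or.inl hv)
    all_goals
      rcases key w with hw | hw | hw | hw | hw
      · exact Or.inr (Or.inr hw)
      all_goals
        rw [hu, hv, hw] at h
        exact absurd h (by decide)

lemma sg_h2_seven : ∀ u : ZMod 29, u ^ 7 ≠ ((7 : ℕ) : ZMod 29) := by decide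

lemma sg_h1_thirteen : ∀ u v w : ZMod 53, u ^ 13 + v ^ 13 + w ^ 13 = 0 → u = 0 ∨ v = 0 ∨ w = 0 := by
  have key : ∀ u : ZMod 53, u = 0 ∨ u ^ 13 = 1 ∨ u ^ 13 = -1 ∨ u ^ 13 = 23 ∨ u ^ 13 = -23 := by decide
  intro u v w h
  rcases key u with hu | hu | hu | hu | hu
  · exact Or.inl hu
  all_goals
    rcases key v with hv | hv | hv | hv | hv
    · exact Or.inr (Or.inl hv)
    all_goals
      rcases key w with hw | hw | hw | hw | hw
      · exact Or.inr (Or.inr hw)
      all_goals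
        rw [hu, hv, hw] at h
        exact absurd h (by decide)

lemma sg_h2_thirteen : ∀ u : ZMod 53, u ^ 13 ≠ ((13 : ℕ) : ZMod 53) := by decide


/-- First case of FLT over `ℤ` in the form `a ^ p + b ^ p ≠ c ^ p`, from Sophie Germain's
conditions for an auxiliary prime `q`. -/
theorem caseI_of_sg {p q : ℕ} (hp : p.Prime) (hodd : Odd p) [Fact q.Prime]
    (h1 : ∀ u v w : ZMod q, u ^ p + v ^ p + w ^ p = 0 → u = 0 ∨ v = 0 ∨ w = 0)
    (h2 : ∀ u : ZMod q, u ^ p ≠ (p : ZMod q))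
    {a b c : ℤ} (hab : IsCoprime a b) (hpabc : ¬ (p : ℤ) ∣ a * b * c) :
    a ^ p + b ^ p ≠ c ^ p := by
  intro h
  have hp1 : p = (p - 1) + 1 := by have := hp.two_le; omega
  have hbc : IsCoprime b c := by
    have h3 : IsCoprime b (a ^ p + b * b ^ (p - 1)) :=
      IsCoprime.add_mul_left_right hab.symm.pow_right _
    rw [← pow_succ', ← hp1, h] at h3
    exact (IsCoprime.pow_right_iff hp.pos).mp h3
  have hac : IsCoprime a c := by
    have h3 : IsCoprime a (b ^ p + a * a ^ (p - 1)) :=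
      IsCoprime.add_mul_left_right hab.pow_right _
    rw [← pow_succ', ← hp1, add_comm, h] at h3
    exact (IsCoprime.pow_right_iff hp.pos).mp h3
  refine sophie_germain hp hodd h1 h2 (x := a) (y := b) (z := -c) hab hbc.neg_right
    hac.symm.neg_left ?_ ?_
  · intro hd
    apply hpabc
    have : a * b * -c = -(a * b * c) := by ring
    rw [this, dvd_neg] at hd
    exact hd
  · rw [hodd.neg_pow]; linear_combination h

theorem caseI_five {a b c : ℤ} (hab : IsCoprime a b) (h : ¬ ((5 : ℕ) : ℤ) ∣ a * b * c) :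
    a ^ 5 + b ^ 5 ≠ c ^ 5 :=
  haveI : Fact (Nat.Prime 11) := ⟨by norm_num⟩
  caseI_of_sg (p := 5) (q := 11) (by norm_num) (by decide) sg_h1_five sg_h2_five hab h

theorem caseI_seven {a b c : ℤ} (hab : IsCoprime a b) (h : ¬ ((7 : ℕ) : ℤ) ∣ a * b * c) :
    a ^ 7 + b ^ 7 ≠ c ^ 7 :=
  haveI : Fact (Nat.Prime 29) := ⟨by norm_num⟩
  caseI_of_sg (p := 7) (q := 29) (by norm_num) (by decide) sg_h1_seven sg_h2_seven hab h

theorem caseI_eleven {a b c : ℤ} (hab : IsCoprime a b) (h : ¬ ((11 : ℕ) : ℤ) ∣ a * b * c) :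
    a ^ 11 + b ^ 11 ≠ c ^ 11 :=
  haveI : Fact (Nat.Prime 23) := ⟨by norm_num⟩
  caseI_of_sg (p := 11) (q := 23) (by norm_num) (by decide) sg_h1_eleven sg_h2_eleven hab h

theorem caseI_thirteen {a b c : ℤ} (hab : IsCoprime a b) (h : ¬ ((13 : ℕ) : ℤ) ∣ a * b * c) :
    a ^ 13 + b ^ 13 ≠ c ^ 13 :=
  haveI : Fact (Nat.Prime 53) := ⟨by norm_num⟩
  caseI_of_sg (p := 13) (q := 53) (by norm_num) (by decide) sg_h1_thirteen sg_h2_thirteen hab h

end Fermat.Agent.Kummer
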